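import Fermat.Agent.S14.Crossing.Statements

/-!
# S14 crossing, piece C13: `GamTrivModRImp : InertiaAtR → GamTrivModR` (helper53)

`Γ = I' · ker Θ` with `I' = {resL = 1, cyc ≡ 1 mod m/r}`: for `γ ∈ Γ` choose (by the surjectivity
of `(resL, cyc)` and the Chinese remainder theorem) `i ∈ I'` with `Θ i = Θ γ`; then `i⁻¹ γ` fixes
`E = Ω^(ker Θ)`, so `γ x = i x ≡ x` for `x ∈ 𝓞 E`, by `InertiaAtR`.
-/

set_option autoImplicit false
set_option linter.unusedSectionVars false

open NumberField Polynomial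
open scoped nonZeroDivisors IntermediateField

noncomputable section

namespace Fermat.Agent.S14.Cross

/-- Chinese remainder theorem for units: a unit mod `m` with given residue mod `r` and residue
`1` mod `m / r`. -/
theorem c13_exists_unit {m r : ℕ} [NeZero m] (hrm : r ∣ m) (hcop : (m / r).Coprime r)
    (u : (ZMod r)ˣ) :
    ∃ b : (ZMod m)ˣ, ZMod.unitsMap hrm b = u ∧
      ZMod.unitsMap (Nat.div_dvd_of_dvd hrm) b = 1 := by
  have hm0 : m ≠ 0 := NeZero.ne m
  have hr0 : r ≠ 0 := fun h => hm0 (by rw [h] at hrm; exact zero_dvd_iff.mp hrm)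
  haveI : NeZero r := ⟨hr0⟩
  obtain ⟨n, hn1, hnu⟩ := Nat.chineseRemainder hcop 1 (u : ZMod r).val
  have hc1 : n.Coprime (m / r) := by
    have := (Nat.ModEq.gcd_eq hn1)
    rw [Nat.Coprime, this]
    exact Nat.gcd_one_left _
  have hc2 : n.Coprime r := by
    have := (Nat.ModEq.gcd_eq hnu)
    rw [Nat.Coprime, this]
    exact ZMod.val_coe_unit_coprime u
  have hc : n.Coprime m := by
    have : n.Coprime (m / r * r) := Nat.Coprime.mul_right hc1 hc2
    rwa [Nat.div_mul_cancel hrm] at this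
  refine ⟨ZMod.unitOfCoprime n hc, ?_, ?_⟩
  · apply Units.ext
    rw [ZMod.unitsMap_val, ZMod.coe_unitOfCoprime, ZMod.cast_natCast hrm]
    rw [← ZMod.natCast_zmod_val (u : ZMod r)]
    exact (ZMod.natCast_eq_natCast_iff _ _ _).mpr hnu
  · apply Units.ext
    rw [ZMod.unitsMap_val, ZMod.coe_unitOfCoprime, ZMod.cast_natCast (Nat.div_dvd_of_dvd hrm)]
    have := (ZMod.natCast_eq_natCast_iff _ _ _).mpr hn1
    simpa using this

/-- **(C13)** -/
theorem gamTrivModRImp : GamTrivModRImp := by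
  intro hI p L _ _ _ ζ m _ r hrm ψ χ hp hp2 hζ hcard hunr hr hrp hcop hsurj hχk hψχ γ ℜ hℜ hrℜ x hx
  have hrp' : r ≠ p := by
    rintro rfl
    rw [Nat.mod_self] at hrp
    exact zero_ne_one hrp
  -- the unit `u = c * a⁻¹` of `ZMod r`
  obtain ⟨a, ha⟩ := hψχ (resL L ζ m γ)
  have ha' : χ.toUnitHom a = ψ (resL L ζ m γ) := by
    apply Units.ext
    rw [MulChar.coe_toUnitHom, ha]
  obtain ⟨b, hb, hb1⟩ := c13_exists_unit hrm hcop (ZMod.unitsMap hrm (cyc L ζ m γ) * a⁻¹)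
  obtain ⟨i, hi1, hib⟩ := hsurj 1 b
  -- `Θ i = Θ γ`
  have hΘ : Theta L ζ m ψ hrm χ i = Theta L ζ m ψ hrm χ γ := by
    simp only [Theta, MonoidHom.mul_apply, MonoidHom.inv_apply, MonoidHom.comp_apply, hi1, hib,
      hb, map_one, one_mul, map_mul, map_inv, ha', mul_inv_rev, inv_inv]
  have hη : i⁻¹ * γ ∈ (Theta L ζ m ψ hrm χ).ker := by
    rw [MonoidHom.mem_ker, map_mul, map_inv, hΘ, inv_mul_cancel]
  have hfix : (i⁻¹ * γ) (x : Om L m) = (x : Om L m) := by
    rw [IntermediateField.mem_fixedField_iff] at hx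
    exact hx _ hη
  have hγ : γ (x : Om L m) = i (x : Om L m) := by
    have := congrArg i hfix
    rw [AlgEquiv.mul_apply] at this
    rw [← this]
    show γ (x : Om L m) = i (i.symm (γ (x : Om L m)))
    rw [AlgEquiv.apply_symm_apply]
  rw [hγ]
  have hib' : ZMod.unitsMap (Nat.div_dvd_of_dvd hrm) (cyc L ζ m i) = 1 := by
    rw [hib, hb1]
  exact hI p L ζ m r hrm hp hζ hunr hr hrp' hcop i ℜ hi1 hib' hℜ hrℜ x

end Fermat.Agent.S14.Cross
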