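import Fermat.Agent.S14.CoprimeRep

/-!
# S14 (X5): the norm residue lemma, abstract form (helper53)

`Ω/ℚ` Galois number field, `K ⊆ E ⊆ Ω`, `r` a prime number, `d = [E : K]`, `χ` a Dirichlet
character mod `r` with `χ ^ d = 1` and `χ (-1) = 1`.  Assume

* (h1) every `K`-embedding of `E` into `Ω` is induced by an automorphism of `Ω` which acts
  trivially on `𝓞 Ω / P` for every prime `P ∣ r` ("`E/K` is totally ramified above `r`");
* (h3) for every prime `P ∣ r` of `Ω` there is a Frobenius element at `P` (w.r.t. `𝔽_r`) fixing `K`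
  ("`r` splits completely in `K`").

Then `χ (absNorm (β)) = 1` for every `β ∈ 𝓞 E` prime to `r`.
-/

set_option autoImplicit false
set_option linter.unusedSectionVars false
set_option linter.style.haveILetI false

open NumberField IntermediateField
open scoped nonZeroDivisors

namespace Fermat.Agent.S14

/-- **(X5) norm residue lemma**, abstract form. -/
def NormResidue : Prop :=
  ∀ (r d : ℕ) (K E Ω : Type) [Field K] [NumberField K] [Field E] [NumberField E]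
    [Field Ω] [NumberField Ω] [Algebra K E] [Algebra E Ω] [Algebra K Ω] [IsScalarTower K E Ω]
    [IsGalois ℚ Ω] (χ : DirichletCharacter ℂ r),
    r.Prime → Module.finrank K E = d → χ ^ d = 1 → χ (-1) = 1 →
    (∀ σ : E →ₐ[K] Ω, ∃ i : Ω ≃ₐ[ℚ] Ω, (∀ x : E, i (algebraMap E Ω x) = σ x) ∧
      ∀ (P : Ideal (𝓞 Ω)), P.IsPrime → (r : 𝓞 Ω) ∈ P →
        ∀ x : 𝓞 Ω, ∃ y ∈ P, i (x : Ω) - (x : Ω) = (y : Ω)) →
    (∀ (P : Ideal (𝓞 Ω)), P.IsPrime → (r : 𝓞 Ω) ∈ P →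
      ∃ φ : Ω ≃ₐ[K] Ω, ∀ x : 𝓞 Ω, ∃ y ∈ P, φ (x : Ω) - (x : Ω) ^ r = (y : Ω)) →
    ∀ β : 𝓞 E, (Ideal.absNorm (Ideal.span {β})).Coprime r →
      χ ((Ideal.absNorm (Ideal.span {β}) : ℕ) : ZMod r) = 1

section nrc

variable {Ω : Type} [Field Ω] [NumberField Ω]

/-- Congruence of elements of `Ω` modulo an ideal of `𝓞 Ω`. -/
def NRCong (P : Ideal (𝓞 Ω)) (x y : Ω) : Prop := ∃ p ∈ P, x - y = (p : Ω)

variable {P : Ideal (𝓞 Ω)} {x y z : Ω}

theorem NRCong.refl (P : Ideal (𝓞 Ω)) (x : Ω) : NRCong P x x := ⟨0, P.zero_mem, by simp⟩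

theorem NRCong.symm (h : NRCong P x y) : NRCong P y x := by
  obtain ⟨p, hp, h⟩ := h
  exact ⟨-p, P.neg_mem hp, by push_cast; linear_combination -h⟩

theorem NRCong.trans (h : NRCong P x y) (h' : NRCong P y z) : NRCong P x z := by
  obtain ⟨p, hp, h⟩ := h
  obtain ⟨q, hq, h'⟩ := h'
  exact ⟨p + q, P.add_mem hp hq, by push_cast; linear_combination h + h'⟩

theorem NRCong.mul {x' : Ω} (a b : 𝓞 Ω) (h : NRCong P x (a : Ω)) (h' : NRCong P x' (b : Ω)) :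
    NRCong P (x * x') ((a * b : 𝓞 Ω) : Ω) := by
  obtain ⟨p, hp, h⟩ := h
  obtain ⟨q, hq, h'⟩ := h'
  refine ⟨a * q + p * b + p * q, P.add_mem (P.add_mem (P.mul_mem_left _ hq) (P.mul_mem_right _ hp))
    (P.mul_mem_left _ hq), ?_⟩
  have hx : x = (a : Ω) + (p : Ω) := by rw [← h]; ring
  have hx' : x' = (b : Ω) + (q : Ω) := by rw [← h']; ring
  rw [hx, hx']
  push_cast
  ring

theorem NRCong.pow (a : 𝓞 Ω) (h : NRCong P x (a : Ω)) (n : ℕ) :
    NRCong P (x ^ n) ((a ^ n : 𝓞 Ω) : Ω) := by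
  induction n with
  | zero => simpa using NRCong.refl P 1
  | succ n ih =>
    rw [pow_succ, pow_succ]
    exact NRCong.mul _ _ ih h

theorem NRCong.multiset_prod (a : 𝓞 Ω) (S : Multiset Ω) (h : ∀ ρ ∈ S, NRCong P ρ (a : Ω)) :
    NRCong P S.prod ((a ^ Multiset.card S : 𝓞 Ω) : Ω) := by
  induction S using Multiset.induction with
  | empty => simpa using NRCong.refl P 1
  | cons ρ S ih =>
    rw [Multiset.prod_cons, Multiset.card_cons, pow_succ, mul_comm]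
    exact NRCong.mul _ _ (ih fun ρ' hρ' => h ρ' (Multiset.mem_cons_of_mem hρ'))
      (h ρ (Multiset.mem_cons_self _ _))

theorem NRCong.map (g : Ω ≃ₐ[ℚ] Ω)
    (h : NRCong (P.comap (galRestrict ℤ ℚ Ω (𝓞 Ω) g)) x y) : NRCong P (g x) (g y) := by
  obtain ⟨p, hp, h⟩ := h
  refine ⟨galRestrict ℤ ℚ Ω (𝓞 Ω) g p, hp, ?_⟩
  rw [← map_sub, h]
  exact (algebraMap_galRestrict_apply ℤ g p).symm

/-- `x` is congruent mod `P` to the `d`-th power of a rational integer. -/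
def NRPow (P : Ideal (𝓞 Ω)) (d : ℕ) (x : Ω) : Prop := ∃ b : ℤ, NRCong P x (((b : 𝓞 Ω) ^ d : 𝓞 Ω) : Ω)

theorem NRPow.one (P : Ideal (𝓞 Ω)) (d : ℕ) : NRPow P d 1 :=
  ⟨1, by simpa using NRCong.refl P 1⟩

theorem NRPow.mul {d : ℕ} {x' : Ω} (h : NRPow P d x) (h' : NRPow P d x') : NRPow P d (x * x') := by
  obtain ⟨b, hb⟩ := h
  obtain ⟨b', hb'⟩ := h'
  refine ⟨b * b', ?_⟩
  have := NRCong.mul _ _ hb hb'
  rwa [← mul_pow, ← Int.cast_mul] at this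

theorem NRPow.pow {d : ℕ} (h : NRPow P d x) (n : ℕ) : NRPow P d (x ^ n) := by
  induction n with
  | zero => simpa using NRPow.one P d
  | succ n ih => rw [pow_succ]; exact ih.mul h

theorem NRPow.multiset_prod {d : ℕ} (S : Multiset Ω) (h : ∀ ρ ∈ S, NRPow P d ρ) :
    NRPow P d S.prod := by
  induction S using Multiset.induction with
  | empty => simpa using NRPow.one P d
  | cons ρ S ih =>
    rw [Multiset.prod_cons]
    exact (h ρ (Multiset.mem_cons_self _ _)).mul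
      (ih fun ρ' hρ' => h ρ' (Multiset.mem_cons_of_mem hρ'))

theorem nrc_ne_bot {P : Ideal (𝓞 Ω)} {r : ℕ} (hr : r.Prime) (hrP : (r : 𝓞 Ω) ∈ P) : P ≠ ⊥ := by
  rintro rfl
  rw [Ideal.mem_bot] at hrP
  exact hr.ne_zero (by exact_mod_cast hrP)

theorem nrc_int_dvd {P : Ideal (𝓞 Ω)} (hP : P.IsPrime) {r : ℕ} (hr : r.Prime)
    (hrP : (r : 𝓞 Ω) ∈ P) (n : ℤ) (hn : (n : 𝓞 Ω) ∈ P) : (r : ℤ) ∣ n := by
  by_contra h
  have hcop : IsCoprime (r : ℤ) n :=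
    (Prime.coprime_iff_not_dvd (Nat.prime_iff_prime_int.mp hr)).mpr h
  obtain ⟨a, b, hab⟩ := hcop
  apply hP.ne_top
  rw [Ideal.eq_top_iff_one]
  have h1 : ((a * r + b * n : ℤ) : 𝓞 Ω) ∈ P := by
    push_cast
    exact P.add_mem (P.mul_mem_left _ hrP) (P.mul_mem_left _ hn)
  rw [hab] at h1
  simpa using h1

theorem nrc_exists_int {P : Ideal (𝓞 Ω)} (hP : P.IsPrime) {r : ℕ} (hr : r.Prime)
    (hrP : (r : 𝓞 Ω) ∈ P) (z : 𝓞 Ω) (hz : z ^ r - z ∈ P) : ∃ b : ℤ, z - (b : 𝓞 Ω) ∈ P := by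
  haveI : Fact r.Prime := ⟨hr⟩
  haveI hmax : P.IsMaximal := hP.isMaximal (nrc_ne_bot hr hrP)
  letI : Field (𝓞 Ω ⧸ P) := Ideal.Quotient.field P
  haveI : CharP (𝓞 Ω ⧸ P) r := by
    have h0 : ((r : ℕ) : 𝓞 Ω ⧸ P) = 0 := by
      have : Ideal.Quotient.mk P (r : 𝓞 Ω) = 0 := Ideal.Quotient.eq_zero_iff_mem.mpr hrP
      simpa using this
    have hdvd : ringChar (𝓞 Ω ⧸ P) ∣ r := (ringChar.spec (𝓞 Ω ⧸ P) r).mp h0
    have hne : ringChar (𝓞 Ω ⧸ P) ≠ 1 := CharP.ringChar_ne_one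
    have : ringChar (𝓞 Ω ⧸ P) = r := ((Nat.dvd_prime hr).mp hdvd).resolve_left hne
    exact this ▸ ringChar.charP (𝓞 Ω ⧸ P)
  have hz' : (Ideal.Quotient.mk P z) ^ r = Ideal.Quotient.mk P z := by
    rw [← map_pow, ← sub_eq_zero, ← map_sub]
    exact Ideal.Quotient.eq_zero_iff_mem.mpr hz
  have hmem := (Subfield.mem_bot_iff_pow_eq_self (F := 𝓞 Ω ⧸ P) (p := r)).mpr hz'
  rw [mem_bot_iff_intCast r] at hmem
  obtain ⟨n, hn⟩ := hmem
  refine ⟨n, ?_⟩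
  rw [← Ideal.Quotient.eq_zero_iff_mem, map_sub, map_intCast, hn, sub_self]


end nrc

section main

variable {r d : ℕ} {K E Ω : Type} [Field K] [NumberField K] [Field E] [NumberField E]
  [Field Ω] [NumberField Ω] [Algebra K E] [Algebra E Ω] [Algebra K Ω] [IsScalarTower K E Ω]
  [IsGalois ℚ Ω]

theorem nrc_coe_algebraMap (x : 𝓞 E) :
    ((algebraMap (𝓞 E) (𝓞 Ω) x : 𝓞 Ω) : Ω) = algebraMap E Ω (x : E) := rfl

/-- Step A: the residue fields of `E` above `r` are prime fields. -/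
theorem nrc_stepA (hr : r.Prime)
    (h1 : ∀ (γ : Ω ≃ₐ[K] Ω) (P : Ideal (𝓞 Ω)), P.IsPrime → (r : 𝓞 Ω) ∈ P →
      ∀ x : 𝓞 E, NRCong P (γ (algebraMap E Ω (x : E))) (algebraMap E Ω (x : E)))
    (h3 : ∀ (P : Ideal (𝓞 Ω)), P.IsPrime → (r : 𝓞 Ω) ∈ P →
      ∃ φ : Ω ≃ₐ[K] Ω, ∀ x : 𝓞 Ω, ∃ y ∈ P, φ (x : Ω) - (x : Ω) ^ r = (y : Ω))
    (P : Ideal (𝓞 Ω)) (hP : P.IsPrime) (hrP : (r : 𝓞 Ω) ∈ P) (x : 𝓞 E) :
    ∃ b : ℤ, NRCong P (algebraMap E Ω (x : E)) ((b : 𝓞 Ω) : Ω) := by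
  obtain ⟨φ, hφ⟩ := h3 P hP hrP
  set z : 𝓞 Ω := algebraMap (𝓞 E) (𝓞 Ω) x with hz
  have hzx : (z : Ω) = algebraMap E Ω (x : E) := rfl
  have e1 : NRCong P (φ (z : Ω)) ((z : Ω) ^ r) := hφ z
  have e2 : NRCong P (φ (z : Ω)) (z : Ω) := h1 φ P hP hrP x
  obtain ⟨p, hp, hpz⟩ := e1.symm.trans e2
  have hmem : z ^ r - z ∈ P := by
    have : z ^ r - z = p := by
      apply RingOfIntegers.ext
      rw [← hpz]
      push_cast
      rfl
    rw [this]
    exact hp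
  obtain ⟨b, hb⟩ := nrc_exists_int hP hr hrP z hmem
  refine ⟨b, z - (b : 𝓞 Ω), hb, ?_⟩
  rw [← hzx]
  push_cast
  rfl

end main

section main2

variable {r d : ℕ} {K E Ω : Type} [Field K] [NumberField K] [Field E] [NumberField E]
  [Field Ω] [NumberField Ω] [Algebra K E] [Algebra E Ω] [Algebra K Ω] [IsScalarTower K E Ω]
  [IsGalois ℚ Ω]

/-- Step B: `N_{E/K} β ≡ β ^ d` modulo every prime above `r`. -/
theorem nrc_stepB (hd : Module.finrank K E = d)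
    (h1 : ∀ (γ : Ω ≃ₐ[K] Ω) (P : Ideal (𝓞 Ω)), P.IsPrime → (r : 𝓞 Ω) ∈ P →
      ∀ x : 𝓞 E, NRCong P (γ (algebraMap E Ω (x : E))) (algebraMap E Ω (x : E)))
    (P : Ideal (𝓞 Ω)) (hP : P.IsPrime) (hrP : (r : 𝓞 Ω) ∈ P) (β : 𝓞 E) :
    NRCong P (algebraMap K Ω (Algebra.norm K (β : E)))
      (((algebraMap (𝓞 E) (𝓞 Ω) β) ^ d : 𝓞 Ω) : Ω) := by
  haveI : FiniteDimensional K E := FiniteDimensional.right ℚ K E
  haveI : IsGalois K Ω := IsGalois.tower_top_of_isGalois ℚ K Ω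
  have hint : IsIntegral K (β : E) := Algebra.IsIntegral.isIntegral _
  have hinj : Function.Injective (algebraMap E Ω) := (algebraMap E Ω).injective
  have hmin : minpoly K (algebraMap E Ω (β : E)) = minpoly K (β : E) :=
    minpoly.algebraMap_eq hinj _
  have hsplit : ((minpoly K (β : E)).map (algebraMap K Ω)).Splits := by
    rw [← hmin]
    exact Normal.splits inferInstance _
  rw [Algebra.norm_eq_prod_roots (F := Ω) hsplit]
  set z : 𝓞 Ω := algebraMap (𝓞 E) (𝓞 Ω) β with hz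
  have hroots : ∀ ρ ∈ (minpoly K (β : E)).aroots Ω, NRCong P ρ (z : Ω) := by
    intro ρ hρ
    rw [Polynomial.mem_aroots] at hρ
    have hρ' : Polynomial.aeval ρ (minpoly K (algebraMap E Ω (β : E))) = 0 := by
      rw [hmin]; exact hρ.2
    obtain ⟨g, hg⟩ := minpoly.exists_algEquiv_of_root'
      (Algebra.IsIntegral.isIntegral (R := K) (algebraMap E Ω (β : E))).isAlgebraic hρ'
    have e2 : NRCong P (g (algebraMap E Ω (β : E))) (z : Ω) := h1 g P hP hrP β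
    rwa [hg] at e2
  have h2 := (NRCong.multiset_prod z _ hroots).pow _ (Module.finrank K⟮(β : E)⟯ E)
  have hcard : Multiset.card ((minpoly K (β : E)).aroots Ω) * Module.finrank K⟮(β : E)⟯ E = d := by
    rw [← hd, ← Module.finrank_mul_finrank K K⟮(β : E)⟯ E, IntermediateField.adjoin.finrank hint]
    congr 1
    rw [Polynomial.aroots, ← hsplit.natDegree_eq_card_roots, Polynomial.natDegree_map]
  rw [← pow_mul, hcard] at h2
  exact h2

end main2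

theorem nrc_chi_natAbs {r : ℕ} (χ : DirichletCharacter ℂ r) (hχ1 : χ (-1) = 1) (m : ℤ) :
    χ ((m.natAbs : ℕ) : ZMod r) = χ (m : ZMod r) := by
  obtain ⟨k, rfl | rfl⟩ := Int.eq_nat_or_neg m
  · simp
  · rw [Int.natAbs_neg, Int.natAbs_natCast, Int.cast_neg, Int.cast_natCast, neg_eq_neg_one_mul,
      map_mul, hχ1, one_mul]

theorem nrc_isUnit_of_natAbs {r : ℕ} (m : ℤ) (h : IsUnit ((m.natAbs : ℕ) : ZMod r)) :
    IsUnit (m : ZMod r) := by
  obtain ⟨k, rfl | rfl⟩ := Int.eq_nat_or_neg m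
  · simpa using h
  · rw [Int.natAbs_neg, Int.natAbs_natCast] at h
    rw [Int.cast_neg, Int.cast_natCast]
    exact h.neg

/-- **(X5)** the norm residue lemma, Galois form: it is enough that every element of
`Gal(Ω/K)` acts trivially on `𝓞 E` modulo every prime of `Ω` above `r`. -/
theorem normResidue_gal (r d : ℕ) (K E Ω : Type) [Field K] [NumberField K] [Field E]
    [NumberField E] [Field Ω] [NumberField Ω] [Algebra K E] [Algebra E Ω] [Algebra K Ω]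
    [IsScalarTower K E Ω] [IsGalois ℚ Ω] (χ : DirichletCharacter ℂ r)
    (hr : r.Prime) (hd : Module.finrank K E = d) (hχd : χ ^ d = 1) (hχ1 : χ (-1) = 1)
    (h1 : ∀ (γ : Ω ≃ₐ[K] Ω) (P : Ideal (𝓞 Ω)), P.IsPrime → (r : 𝓞 Ω) ∈ P →
      ∀ x : 𝓞 E, ∃ y ∈ P, γ (algebraMap E Ω (x : E)) - algebraMap E Ω (x : E) = (y : Ω))
    (h3 : ∀ (P : Ideal (𝓞 Ω)), P.IsPrime → (r : 𝓞 Ω) ∈ P →
      ∃ φ : Ω ≃ₐ[K] Ω, ∀ x : 𝓞 Ω, ∃ y ∈ P, φ (x : Ω) - (x : Ω) ^ r = (y : Ω))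
    (β : 𝓞 E) (hβ : (Ideal.absNorm (Ideal.span {β})).Coprime r) :
    χ ((Ideal.absNorm (Ideal.span {β}) : ℕ) : ZMod r) = 1 := by
  haveI : FiniteDimensional K E := FiniteDimensional.right ℚ K E
  have hd0 : d ≠ 0 := by
    rw [← hd]
    exact Module.finrank_pos.ne'
  -- a prime `P` above `r`
  obtain ⟨P, hPmax, hPr⟩ :=
    Ideal.exists_le_maximal _ (cr_span_natCast_ne_top (E := Ω) r hr.two_le)
  have hP : P.IsPrime := hPmax.isPrime
  have hrP : (r : 𝓞 Ω) ∈ P := hPr (Ideal.mem_span_singleton_self _)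
  -- Step C
  have hC : ∀ (P' : Ideal (𝓞 Ω)), P'.IsPrime → (r : 𝓞 Ω) ∈ P' →
      NRPow P' d (algebraMap K Ω (Algebra.norm K (β : E))) := by
    intro P' hP' hrP'
    obtain ⟨b, hb⟩ := nrc_stepA hr h1 h3 P' hP' hrP' β
    refine ⟨b, (nrc_stepB hd h1 P' hP' hrP' β).trans ?_⟩
    have h := hb.pow (b : 𝓞 Ω) d
    rw [← nrc_coe_algebraMap] at h
    simpa using h
  -- Step D
  have hD : NRPow P d (algebraMap ℚ Ω (Algebra.norm ℚ (Algebra.norm K (β : E)))) := by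
    set z := Algebra.norm K (β : E) with hz
    have hmin : minpoly ℚ (algebraMap K Ω z) = minpoly ℚ z :=
      minpoly.algebraMap_eq (algebraMap K Ω).injective z
    have hsplit : ((minpoly ℚ z).map (algebraMap ℚ Ω)).Splits := by
      rw [← hmin]
      exact Normal.splits inferInstance _
    rw [Algebra.norm_eq_prod_roots (F := Ω) hsplit]
    apply NRPow.pow
    apply NRPow.multiset_prod
    intro ρ hρ
    rw [Polynomial.mem_aroots] at hρ
    have hρ' : Polynomial.aeval ρ (minpoly ℚ (algebraMap K Ω z)) = 0 := by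
      rw [hmin]; exact hρ.2
    obtain ⟨g, hg⟩ := minpoly.exists_algEquiv_of_root'
      (Algebra.IsIntegral.isIntegral (R := ℚ) (algebraMap K Ω z)).isAlgebraic hρ'
    have hP' : (P.comap (galRestrict ℤ ℚ Ω (𝓞 Ω) g)).IsPrime := Ideal.comap_isPrime _ _
    have hrP' : (r : 𝓞 Ω) ∈ P.comap (galRestrict ℤ ℚ Ω (𝓞 Ω) g) := by
      rw [Ideal.mem_comap, map_natCast]
      exact hrP
    obtain ⟨b, hb⟩ := hC _ hP' hrP'
    refine ⟨b, ?_⟩
    have h := hb.map g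
    rw [hg] at h
    have hcast : ((((b : 𝓞 Ω) ^ d : 𝓞 Ω)) : Ω) = ((b ^ d : ℤ) : Ω) := by
      push_cast
      simp
    have hfix : g ((((b : 𝓞 Ω) ^ d : 𝓞 Ω)) : Ω) = ((((b : 𝓞 Ω) ^ d : 𝓞 Ω)) : Ω) := by
      rw [hcast, map_intCast]
    rwa [hfix] at h
  obtain ⟨B, p, hp, hBp⟩ := hD
  have hn : Algebra.norm ℚ (Algebra.norm K (β : E)) = ((Algebra.norm ℤ β : ℤ) : ℚ) := by
    rw [Algebra.norm_norm, Algebra.coe_norm_int]
  set n : ℤ := Algebra.norm ℤ β with hndef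
  have hmem : ((n - B ^ d : ℤ) : 𝓞 Ω) ∈ P := by
    have : ((n - B ^ d : ℤ) : 𝓞 Ω) = p := by
      apply RingOfIntegers.ext
      rw [← hBp, hn]
      push_cast
      simp
    rw [this]
    exact hp
  have hdvd := nrc_int_dvd hP hr hrP _ hmem
  have hmod : (n : ZMod r) = (B : ZMod r) ^ d := by
    have := (ZMod.intCast_zmod_eq_zero_iff_dvd _ r).mpr hdvd
    push_cast at this
    exact sub_eq_zero.mp this
  rw [Ideal.absNorm_span_singleton] at hβ ⊢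
  have hunit : IsUnit ((n.natAbs : ℕ) : ZMod r) := (ZMod.isUnit_iff_coprime _ _).mpr hβ
  have hχn : χ ((n.natAbs : ℕ) : ZMod r) = χ (n : ZMod r) := nrc_chi_natAbs χ hχ1 n
  have hunit' : IsUnit (n : ZMod r) := nrc_isUnit_of_natAbs n hunit
  have hBunit : IsUnit (B : ZMod r) := by
    rw [hmod] at hunit'
    exact (isUnit_pow_iff hd0).mp hunit'
  rw [hχn, hmod, map_pow, ← MulChar.pow_apply' χ hd0, hχd, MulChar.one_apply hBunit]


/-- **(X5)** the norm residue lemma. -/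
theorem normResidue : NormResidue := by
  intro r d K E Ω _ _ _ _ _ _ _ _ _ _ _ χ hr hd hχd hχ1 h1 h3 β hβ
  refine normResidue_gal r d K E Ω χ hr hd hχd hχ1 ?_ h3 β hβ
  intro γ P hP hrP x
  obtain ⟨i, hi, hiP⟩ := h1 ((γ : Ω →ₐ[K] Ω).comp (IsScalarTower.toAlgHom K E Ω))
  obtain ⟨y, hy, hxy⟩ := hiP P hP hrP (algebraMap (𝓞 E) (𝓞 Ω) x)
  refine ⟨y, hy, ?_⟩
  rw [← hxy, nrc_coe_algebraMap, hi]
  rfl

end Fermat.Agent.S14
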