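import Fermat.Agent.S14.Crossing.Statements
import Fermat.Agent.S14.Crossing.NormResidue
import Fermat.Agent.S14.FinalA

/-!
# S14 crossing, piece C14: `NormResidueImp : GamTrivModR → Cross.NormResidue` (helper53)

Glue between the abstract norm computation `Fermat.Agent.S14.normResidue_gal` and the set-up
of `Crossing/Setup.lean`.
-/

set_option autoImplicit false
set_option linter.unusedSectionVars false
set_option linter.style.haveILetI false

open NumberField Polynomial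
open scoped nonZeroDivisors IntermediateField

noncomputable section

namespace Fermat.Agent.S14.Cross

section tower

variable {L : Type} [Field L] [NumberField L] [IsGalois ℚ L] {ζ : L} {m : ℕ} [NeZero m]

/-- An automorphism of `Ω/ℚ` fixing `ζ` fixes `K = ℚ(ζ)`. -/
theorem c14_fix_K (hζ : IsIntegral ℚ ζ) (φ : Om L m ≃ₐ[ℚ] Om L m)
    (h : φ (algebraMap L (Om L m) ζ) = algebraMap L (Om L m) ζ) (k : ℚ⟮ζ⟯) :
    φ (algebraMap ℚ⟮ζ⟯ (Om L m) k) = algebraMap ℚ⟮ζ⟯ (Om L m) k := by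
  have key : ((φ : Om L m →ₐ[ℚ] Om L m).comp (IsScalarTower.toAlgHom ℚ ℚ⟮ζ⟯ (Om L m))) =
      IsScalarTower.toAlgHom ℚ ℚ⟮ζ⟯ (Om L m) := by
    apply (IntermediateField.adjoin.powerBasis hζ).algHom_ext
    rw [IntermediateField.adjoin.powerBasis_gen]
    exact h
  exact congrArg (fun f : ℚ⟮ζ⟯ →ₐ[ℚ] Om L m => f k) key

/-- An automorphism of `Ω/ℚ` fixing `ζ`, as an element of `Gal(Ω/K)`. -/
def c14_toGam (hζ : IsIntegral ℚ ζ) (φ : Om L m ≃ₐ[ℚ] Om L m)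
    (h : φ (algebraMap L (Om L m) ζ) = algebraMap L (Om L m) ζ) : Gam L ζ m :=
  AlgEquiv.ofRingEquiv (f := φ.toRingEquiv) (c14_fix_K hζ φ h)

theorem c14_toGam_apply (hζ : IsIntegral ℚ ζ) (φ : Om L m ≃ₐ[ℚ] Om L m)
    (h : φ (algebraMap L (Om L m) ζ) = algebraMap L (Om L m) ζ) (x : Om L m) :
    c14_toGam hζ φ h x = φ x := rfl

end tower


section chi

variable {L : Type} [Field L] [NumberField L] [IsGalois ℚ L] {ζ : L} {m : ℕ} [NeZero m]

/-- `[E_H : K] = [Γ : H]`. -/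
theorem c14_finrank_EH (H : Subgroup (Gam L ζ m)) :
    Module.finrank ℚ⟮ζ⟯ (EH L ζ m H) = H.index := by
  rw [IntermediateField.finrank_eq_fixingSubgroup_index,
    IntermediateField.fixingSubgroup_fixedField]

/-- `χ ^ [Γ : ker Θ] = 1` when `(resL, cyc)` is onto. -/
theorem c14_chi_pow {r : ℕ} (hrm : r ∣ m) (ψ : (L ≃ₐ[ℚ⟮ζ⟯] L) →* ℂˣ)
    (χ : DirichletCharacter ℂ r)
    (hsurj : ∀ (σ : L ≃ₐ[ℚ⟮ζ⟯] L) (a : (ZMod m)ˣ),
      ∃ g : Gam L ζ m, resL L ζ m g = σ ∧ cyc L ζ m g = a) :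
    χ ^ (Theta L ζ m ψ hrm χ).ker.index = 1 := by
  ext a
  rw [MulChar.pow_apply_coe, MulChar.one_apply_coe]
  obtain ⟨a', ha'⟩ := ZMod.unitsMap_surjective hrm a
  obtain ⟨g, hg1, hga⟩ := hsurj 1 a'
  have hmem := (Theta L ζ m ψ hrm χ).ker.pow_index_mem g
  rw [MonoidHom.mem_ker, map_pow] at hmem
  have hΘ : Theta L ζ m ψ hrm χ g = (χ.toUnitHom a)⁻¹ := by
    simp only [Theta, MonoidHom.mul_apply, MonoidHom.inv_apply, MonoidHom.comp_apply, hg1, hga,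
      ha', map_one, one_mul]
  rw [hΘ, inv_pow, inv_eq_one] at hmem
  have := congrArg (fun u : ℂˣ => (u : ℂ)) hmem
  simpa [MulChar.coe_toUnitHom] using this

/-- A character of odd order is even. -/
theorem c14_chi_neg_one {r p k : ℕ} (hp : p.Prime) (hp2 : p ≠ 2) (χ : DirichletCharacter ℂ r)
    (hχ : χ ^ (p ^ k) = 1) : χ (-1) = 1 := by
  have hodd : Odd (p ^ k) := (hp.odd_of_ne_two hp2).pow
  obtain ⟨j, hj⟩ := hodd
  have hu : IsUnit (-1 : ZMod r) := isUnit_one.neg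
  have h1 : (χ ^ (p ^ k)) (-1) = 1 := by rw [hχ, MulChar.one_apply hu]
  have hk0 : p ^ k ≠ 0 := pow_ne_zero _ hp.ne_zero
  rw [MulChar.pow_apply' χ hk0, hj, pow_succ, pow_mul] at h1
  have h2 : χ (-1) ^ 2 = 1 := by
    rw [← map_pow]
    simp
  rw [h2, one_pow, one_mul] at h1
  exact h1

end chi

/-- **(C14)** the norm residue lemma from `GamTrivModR`. -/
theorem normResidueImp : NormResidueImp := by
  intro hG p L _ _ _ ζ m _ r hrm ψ χ hp hp2 hζ hcard hunr hr hrp hcop hsurj hχk hψχ β hβ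
  obtain ⟨k, hχk'⟩ := hχk
  have hζint : IsIntegral ℚ ζ := Algebra.IsIntegral.isIntegral ζ
  refine Fermat.Agent.S14.normResidue_gal r _ ℚ⟮ζ⟯ (EH L ζ m (Theta L ζ m ψ hrm χ).ker) (Om L m) χ
    hr (c14_finrank_EH _) (c14_chi_pow hrm ψ χ hsurj) (c14_chi_neg_one hp hp2 χ hχk') ?_ ?_ β hβ
  · -- (h1)
    intro γ P hP hrP x
    have hx : ((algebraMap (𝓞 (EH L ζ m (Theta L ζ m ψ hrm χ).ker)) (𝓞 (Om L m)) x :
        𝓞 (Om L m)) : Om L m) ∈ EH L ζ m (Theta L ζ m ψ hrm χ).ker :=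
      SetLike.coe_mem (x : EH L ζ m (Theta L ζ m ψ hrm χ).ker)
    exact hG p L ζ m r hrm ψ χ hp hp2 hζ hcard hunr hr hrp hcop hsurj ⟨k, hχk'⟩ hψχ γ P hP hrP
      (algebraMap (𝓞 (EH L ζ m (Theta L ζ m ψ hrm χ).ker)) (𝓞 (Om L m)) x) hx
  · -- (h3)
    intro P hP hrP
    obtain ⟨φ, hφ⟩ := Fermat.Agent.S14.x9a_exists_frob hr hP hrP
    have hrp' : ¬ r ∣ p := by
      intro h
      rcases (Nat.dvd_prime hp).mp h with h1 | h1
      · exact hr.one_lt.ne' h1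
      · rw [h1, Nat.mod_self] at hrp
        exact zero_ne_one hrp
    have hζp : (algebraMap L (Om L m) ζ) ^ p = 1 := by
      rw [← map_pow, hζ.pow_eq_one, map_one]
    have hroot := Fermat.Agent.S14.x9a_frob_root hr hP hrP hφ hp.ne_zero hζp hrp'
    have hfix : φ (algebraMap L (Om L m) ζ) = algebraMap L (Om L m) ζ := by
      rw [hroot]
      conv_lhs => rw [← Nat.div_add_mod r p, hrp, pow_add, pow_mul, hζp, one_pow, one_mul, pow_one]
    exact ⟨c14_toGam hζint φ hfix, fun x => hφ x⟩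

end Fermat.Agent.S14.Cross
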