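import Fermat.Agent.S14.Crossing.Statements
import Fermat.Agent.S14.FinalA

/-!
# S14 crossing, piece C9: `SplitIsNorm` (helper13)
-/

set_option autoImplicit false
set_option linter.unusedSectionVars false

open NumberField Polynomial
open scoped nonZeroDivisors IntermediateField

namespace Fermat.Agent.S14.Cross

section c9

variable {L : Type} [Field L] [NumberField L] [IsGalois ℚ L] {ζ : L} {m : ℕ} [NeZero m]

/-- An element of `H` which is trivial on `L` fixes `M_H` pointwise. -/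
theorem c9_fix_MH (H : Subgroup (Gam L ζ m)) {g : Gam L ζ m} (hgH : g ∈ H)
    (hg1 : resL L ζ m g = 1) (x : Om L m) (hx : x ∈ MH L ζ m H) : g x = x := by
  have hfix : g ∈ (EH L ζ m H).fixingSubgroup := by
    have := (IntermediateField.le_iff_le H (EH L ζ m H)).mp le_rfl
    exact this hgH
  set g' : Om L m ≃ₐ[EH L ζ m H] Om L m :=
    IntermediateField.fixingSubgroupEquiv (EH L ζ m H) ⟨g, hfix⟩ with hg'
  have hg'g : AlgEquiv.restrictScalarsHom ℚ⟮ζ⟯ g' = g := by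
    ext y
    rfl
  have hmem : g' ∈ HL L ζ m H := by
    show (resL L ζ m) (AlgEquiv.restrictScalarsHom ℚ⟮ζ⟯ g') = 1
    rw [hg'g, hg1]
  have := (IntermediateField.mem_fixedField_iff (HL L ζ m H) x).mp hx g' hmem
  exact this

end c9

/-- **(C9)** `SplitIsNorm`. -/
theorem splitIsNorm : SplitIsNorm := by
  intro L _ _ _ ζ m _ H B g P _ hB hgH hP hPB hg hg1
  have hB0 : (B : Ideal (𝓞 (EH L ζ m H))) ≠ ⊥ := mem_nonZeroDivisors_iff_ne_zero.mp B.2
  -- the prime of `M_H` below `P`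
  set B' : Ideal (𝓞 (MH L ζ m H)) := P.under (𝓞 (MH L ζ m H)) with hB'def
  have hB' : B'.IsPrime := inferInstance
  have hB'B : B'.under (𝓞 (EH L ζ m H)) = B := by
    rw [hB'def, Ideal.under_under, hPB]
  have hover : B'.LiesOver (B : Ideal (𝓞 (EH L ζ m H))) := ⟨hB'B.symm⟩
  have hB'0 : B' ≠ ⊥ := Ideal.ne_bot_of_liesOver_of_ne_bot hB0 B'
  -- the residue field of `B'` is small
  have hN1 : 1 < Ideal.absNorm (B : Ideal (𝓞 (EH L ζ m H))) := by
    have h0 : Ideal.absNorm (B : Ideal (𝓞 (EH L ζ m H))) ≠ 0 :=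
      fun h => hB0 (Ideal.absNorm_eq_zero_iff.mp h)
    have h1 : Ideal.absNorm (B : Ideal (𝓞 (EH L ζ m H))) ≠ 1 :=
      fun h => hB.ne_top (Ideal.absNorm_eq_one_iff.mp h)
    omega
  have hle : Ideal.absNorm B' ≤ Ideal.absNorm (B : Ideal (𝓞 (EH L ζ m H))) := by
    have : Finite (𝓞 (MH L ζ m H) ⧸ B') := Ideal.finiteQuotientOfFreeOfNeBot B' hB'0
    have : IsDomain (𝓞 (MH L ζ m H) ⧸ B') := Ideal.Quotient.isDomain B'
    rw [Ideal.absNorm_apply B', Submodule.cardQuot_apply]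
    refine x9a_card_le_of_pow_eq hN1 fun y => ?_
    obtain ⟨x, rfl⟩ := Ideal.Quotient.mk_surjective y
    rw [← map_pow, ← sub_eq_zero, ← map_sub, Ideal.Quotient.eq_zero_iff_mem, hB'def,
      Ideal.under_def, Ideal.mem_comap]
    obtain ⟨z, hz, hxz⟩ := hg (algebraMap (𝓞 (MH L ζ m H)) (𝓞 (Om L m)) x)
    have hfix : g ((algebraMap (𝓞 (MH L ζ m H)) (𝓞 (Om L m)) x : 𝓞 (Om L m)) : Om L m) =
        ((algebraMap (𝓞 (MH L ζ m H)) (𝓞 (Om L m)) x : 𝓞 (Om L m)) : Om L m) :=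
      c9_fix_MH H hgH hg1 _ (x : MH L ζ m H).2
    rw [hfix] at hxz
    have : algebraMap (𝓞 (MH L ζ m H)) (𝓞 (Om L m))
        (x ^ Ideal.absNorm (B : Ideal (𝓞 (EH L ζ m H))) - x) = -z := by
      apply RingOfIntegers.ext
      show _ = -(z : Om L m)
      rw [← hxz, map_sub, map_pow]
      simp
    rw [this]
    exact P.neg_mem hz
  -- the relative norm of `B'` is `B`
  obtain ⟨s, hs⟩ := Ideal.exists_relNorm_eq_pow_of_isPrime B' (B : Ideal (𝓞 (EH L ζ m H)))
  have h1 : Ideal.absNorm B' = Ideal.absNorm (B : Ideal (𝓞 (EH L ζ m H))) ^ s := by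
    rw [← Ideal.absNorm_relNorm (R := 𝓞 (EH L ζ m H)), hs, map_pow]
  have hs1 : s = 1 := by
    rcases Nat.lt_or_ge s 1 with h | h
    · have hs0 : s = 0 := by omega
      rw [hs0, pow_zero, Ideal.absNorm_eq_one_iff] at h1
      exact absurd h1 hB'.ne_top
    · rcases Nat.lt_or_ge 1 s with h' | h'
      · have := Nat.pow_lt_pow_right hN1 h'
        rw [pow_one, ← h1] at this
        omega
      · omega
  rw [hs1, pow_one] at hs
  exact ⟨⟨B', mem_nonZeroDivisors_iff_ne_zero.mpr hB'0⟩, B, hs.symm, rfl⟩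

end Fermat.Agent.S14.Cross
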