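import Fermat.Agent.S14.Crossing.Statements

/-!
# S14 crossing, piece C8: `ResFrob` (helper13)
-/

set_option autoImplicit false

open NumberField Polynomial
open scoped nonZeroDivisors IntermediateField

namespace Fermat.Agent.S14.Cross

section c8

variable {L : Type} [Field L] [NumberField L] [IsGalois ℚ L] {ζ : L} {m : ℕ} [NeZero m]

/-- The Frobenius congruence for `g` on `Ω` gives the Frobenius congruence for `resL g`
on `L`. -/
theorem c8_resL_frob {g : Gam L ζ m} {P : Ideal (𝓞 (Om L m))} {q : ℕ} (hg : IsFrobOm g P q)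
    (x : 𝓞 L) : (resL L ζ m g) • x - x ^ q ∈ P.under (𝓞 L) := by
  obtain ⟨y, hy, hxy⟩ := hg (algebraMap (𝓞 L) (𝓞 (Om L m)) x)
  rw [Ideal.under_def, Ideal.mem_comap]
  have h1 : algebraMap (𝓞 L) (𝓞 (Om L m)) ((resL L ζ m g) • x - x ^ q) = y := by
    apply RingOfIntegers.ext
    rw [← hxy]
    show algebraMap L (Om L m) ((resL L ζ m g) (x : L) - (x : L) ^ q) = _
    rw [map_sub, map_pow, resL_commutes]
    rfl
  rw [h1]
  exact hy

end c8

/-- **(C8)** `ResFrob`. -/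
theorem resFrob : ResFrob := by
  intro L _ _ _ ζ m _ g P q τ hU hP hP0 hg hτ
  have hp : (P.under (𝓞 L)).IsPrime := inferInstance
  have hp0 : P.under (𝓞 L) ≠ ⊥ := Ideal.under_ne_bot (𝓞 L) hP0
  have hin : InInertia ((resL L ζ m g) * τ⁻¹) (P.under (𝓞 L)) := by
    intro x
    have h1 := c8_resL_frob hg (τ⁻¹ • x)
    obtain ⟨y, hy, hxy⟩ := hτ (τ⁻¹ • x)
    refine ⟨(resL L ζ m g) • (τ⁻¹ • x) - (τ⁻¹ • x) ^ q - y, Ideal.sub_mem _ h1 hy, ?_⟩
    have h2 : τ ((τ⁻¹ • x : 𝓞 L) : L) = (x : L) := by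
      show τ (τ⁻¹ (x : L)) = x
      rw [← AlgEquiv.mul_apply, mul_inv_cancel, AlgEquiv.one_apply]
    rw [h2] at hxy
    show (resL L ζ m g * τ⁻¹) (x : L) - (x : L) =
      (resL L ζ m g) (τ⁻¹ (x : L)) - (τ⁻¹ (x : L)) ^ q - (y : L)
    rw [← hxy, AlgEquiv.mul_apply]
    show _ = (resL L ζ m g) (τ⁻¹ (x : L)) - (τ⁻¹ (x : L)) ^ q - ((x : L) - (τ⁻¹ (x : L)) ^ q)
    ring
  have h := hU _ hp hp0 _ hin
  exact mul_inv_eq_one.mp h

end Fermat.Agent.S14.Cross
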