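import Fermat.Agent.S14.Crossing.CycFrob
import Fermat.Agent.S14.Crossing.ResFrob
import Fermat.Agent.S14.FinalA

/-!
# S14 crossing, piece C11: `SplitPrimeEH` (helper13)
-/

set_option autoImplicit false
set_option linter.unusedSectionVars false

open NumberField Polynomial
open scoped nonZeroDivisors IntermediateField

namespace Fermat.Agent.S14.Cross

section c11

variable {L : Type} [Field L] [NumberField L] [IsGalois ℚ L] {ζ : L} {m : ℕ} [NeZero m]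

/-- Existence of a Frobenius element in `Gal(Ω/K)` at a given prime `P` of `Ω`. -/
theorem c11_exists_frob_at (P : Ideal (𝓞 (Om L m))) (hP : P.IsPrime) (hP0 : P ≠ ⊥) :
    ∃ g : Gam L ζ m, IsFrobOm g P (Ideal.absNorm (P.under (𝓞 ℚ⟮ζ⟯))) := by
  have : Finite (𝓞 (Om L m) ⧸ P) := Ideal.finiteQuotientOfFreeOfNeBot P hP0
  obtain ⟨σ, hσ⟩ := IsArithFrobAt.exists_of_isInvariant (𝓞 ℚ⟮ζ⟯) (Gam L ζ m) P
  refine ⟨σ, fun x => ?_⟩
  have h := hσ x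
  have hcard : Nat.card (𝓞 ℚ⟮ζ⟯ ⧸ P.under (𝓞 ℚ⟮ζ⟯)) = Ideal.absNorm (P.under (𝓞 ℚ⟮ζ⟯)) := by
    rw [Ideal.absNorm_apply, Submodule.cardQuot_apply]
  rw [hcard] at h
  exact ⟨_, h, rfl⟩

/-- An element of `H` fixes `E_H` pointwise. -/
theorem c11_fix_EH (H : Subgroup (Gam L ζ m)) {g : Gam L ζ m} (hgH : g ∈ H)
    (x : Om L m) (hx : x ∈ EH L ζ m H) : g x = x :=
  (IntermediateField.mem_fixedField_iff H x).mp hx g hgH

/-- A prime `B'` of `M` such that `x ^ N(b) ≡ x mod B'` for all integers `x` of `M`, where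
`b = B' ∩ E`, has residue degree one over `E`: its relative norm is `b`. -/
theorem c11_relNorm_eq_under {E M : Type} [Field E] [NumberField E] [Field M] [NumberField M]
    [Algebra E M] (B' : Ideal (𝓞 M)) (hB' : B'.IsPrime) (hB'0 : B' ≠ ⊥)
    (hpow : ∀ x : 𝓞 M, x ^ Ideal.absNorm (B'.under (𝓞 E)) - x ∈ B') :
    Ideal.relNorm (𝓞 E) B' = B'.under (𝓞 E) ∧
      Ideal.absNorm B' = Ideal.absNorm (B'.under (𝓞 E)) := by
  have hb : (B'.under (𝓞 E)).IsPrime := inferInstance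
  have hb0 : B'.under (𝓞 E) ≠ ⊥ := Ideal.under_ne_bot (𝓞 E) hB'0
  have hN1 : 1 < Ideal.absNorm (B'.under (𝓞 E)) := by
    have h0 : Ideal.absNorm (B'.under (𝓞 E)) ≠ 0 :=
      fun h => hb0 (Ideal.absNorm_eq_zero_iff.mp h)
    have h1 : Ideal.absNorm (B'.under (𝓞 E)) ≠ 1 :=
      fun h => hb.ne_top (Ideal.absNorm_eq_one_iff.mp h)
    omega
  have hle : Ideal.absNorm B' ≤ Ideal.absNorm (B'.under (𝓞 E)) := by
    have : Finite (𝓞 M ⧸ B') := Ideal.finiteQuotientOfFreeOfNeBot B' hB'0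
    have : IsDomain (𝓞 M ⧸ B') := Ideal.Quotient.isDomain B'
    rw [Ideal.absNorm_apply B', Submodule.cardQuot_apply]
    refine x9a_card_le_of_pow_eq hN1 fun y => ?_
    obtain ⟨x, rfl⟩ := Ideal.Quotient.mk_surjective y
    rw [← map_pow, ← sub_eq_zero, ← map_sub, Ideal.Quotient.eq_zero_iff_mem]
    exact hpow x
  obtain ⟨s, hs⟩ := Ideal.exists_relNorm_eq_pow_of_isPrime B' (B'.under (𝓞 E))
  have h1 : Ideal.absNorm B' = Ideal.absNorm (B'.under (𝓞 E)) ^ s := by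
    rw [← Ideal.absNorm_relNorm (R := 𝓞 E), hs, map_pow]
  have hs1 : s = 1 := by
    rcases Nat.lt_or_ge s 1 with h | h
    · have hs0 : s = 0 := by omega
      rw [hs0, pow_zero, Ideal.absNorm_eq_one_iff] at h1
      exact absurd h1 hB'.ne_top
    · rcases Nat.lt_or_ge 1 s with h' | h'
      · have := Nat.pow_lt_pow_right hN1 h'
        rw [pow_one, ← h1] at this
        omega
      · omega
  rw [hs1, pow_one] at hs h1
  exact ⟨hs, h1⟩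

end c11

/-- **(C11)** `SplitPrimeEH`. -/
theorem splitPrimeEH : SplitPrimeEH := by
  intro p L _ _ _ ζ m _ H ℓ Q τ hp hζ hU hℓ hℓ1 hℓm hQ hℓQ hτ hH
  have hQ0 : Q ≠ ⊥ := x9a_ne_bot_of_natCast_mem hℓ hℓQ
  have hQmax : Q.IsMaximal := hQ.isMaximal hQ0
  -- a prime of `Ω` above `Q`
  obtain ⟨P, hPmax, hPover⟩ :=
    Ideal.exists_maximal_ideal_liesOver_of_isIntegral (S := 𝓞 (Om L m)) Q
  have hP : P.IsPrime := hPmax.isPrime
  have hPQ : P.under (𝓞 L) = Q := hPover.over.symm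
  have hP0 : P ≠ ⊥ := Ideal.ne_bot_of_liesOver_of_ne_bot hQ0 P
  have hPK : P.under (𝓞 ℚ⟮ζ⟯) = Q.under (𝓞 ℚ⟮ζ⟯) := by
    rw [← hPQ, Ideal.under_under]
  -- the norm of `q`
  have hℓp : ℓ ≠ p := by
    rintro rfl
    rw [Nat.mod_self] at hℓ1
    exact absurd hℓ1 (by norm_num)
  have hℓp' : ¬ ℓ ∣ p := fun h => hℓp ((Nat.prime_dvd_prime_iff_eq hℓ hp).mp h)
  have : NeZero p := ⟨hp.ne_zero⟩
  have hcyc : IsCyclotomicExtension {p} ℚ ℚ⟮ζ⟯ :=
    hζ.intermediateField_adjoin_isCyclotomicExtension ℚ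
  have hone : (ℓ : ZMod p) = 1 := by
    have h1 : ((ℓ : ℕ) : ZMod p) = ((1 : ℕ) : ZMod p) := by
      rw [ZMod.natCast_eq_natCast_iff', hℓ1, Nat.mod_eq_of_lt hp.one_lt]
    simpa using h1
  have hqn : Ideal.absNorm (Q.under (𝓞 ℚ⟮ζ⟯)) = ℓ := by
    have := x9a_absNorm_cyclo ℚ⟮ζ⟯ p ℓ hℓ hℓp' _ inferInstance (x9a_natCast_mem_under (ζ := ζ) hℓQ)
    rw [this, hone, orderOf_one, pow_one]
  -- the Frobenius at `P`
  obtain ⟨g, hg⟩ := c11_exists_frob_at (ζ := ζ) P hP hP0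
  rw [hPK, hqn] at hg
  have hres : resL L ζ m g = τ := by
    refine resFrob L ζ m g P ℓ τ hU hP hP0 hg ?_
    rw [hPQ]
    exact hτ
  have hℓP : (ℓ : 𝓞 (Om L m)) ∈ P := by
    have h1 : (ℓ : 𝓞 L) ∈ P.under (𝓞 L) := by rw [hPQ]; exact hℓQ
    rw [Ideal.under_def, Ideal.mem_comap, map_natCast] at h1
    exact h1
  have hmP : (m : 𝓞 (Om L m)) ∉ P := by
    refine x9a_natCast_not_mem hℓ hP hℓP ?_
    intro hd
    have := Nat.dvd_gcd (dvd_refl ℓ) hd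
    rw [hℓm] at this
    exact hℓ.one_lt.ne' (Nat.dvd_one.mp this)
  have hcyc' : ((cyc L ζ m g : (ZMod m)ˣ) : ZMod m) = (ℓ : ZMod m) := by
    have := cycFrob L ζ m g P ℓ m (dvd_refl m) hP hg hmP
    rwa [ZMod.unitsMap_self, MonoidHom.id_apply] at this
  have hgH : g ∈ H := hH g hres hcyc'
  -- the prime of `E_H` below `P`
  set B : Ideal (𝓞 (EH L ζ m H)) := P.under (𝓞 (EH L ζ m H)) with hBdef
  have hB : B.IsPrime := inferInstance
  have hB0 : B ≠ ⊥ := Ideal.under_ne_bot _ hP0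
  have hBK : B.under (𝓞 ℚ⟮ζ⟯) = Q.under (𝓞 ℚ⟮ζ⟯) := by
    rw [hBdef, Ideal.under_under, hPK]
  have hpow : ∀ x : 𝓞 (EH L ζ m H), x ^ Ideal.absNorm (B.under (𝓞 ℚ⟮ζ⟯)) - x ∈ B := by
    intro x
    rw [hBK, hqn, hBdef, Ideal.under_def, Ideal.mem_comap]
    obtain ⟨z, hz, hxz⟩ := hg (algebraMap (𝓞 (EH L ζ m H)) (𝓞 (Om L m)) x)
    have hfix : g ((algebraMap (𝓞 (EH L ζ m H)) (𝓞 (Om L m)) x : 𝓞 (Om L m)) : Om L m) =
        ((algebraMap (𝓞 (EH L ζ m H)) (𝓞 (Om L m)) x : 𝓞 (Om L m)) : Om L m) :=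
      c11_fix_EH H hgH _ (x : EH L ζ m H).2
    rw [hfix] at hxz
    have : algebraMap (𝓞 (EH L ζ m H)) (𝓞 (Om L m)) (x ^ ℓ - x) = -z := by
      apply RingOfIntegers.ext
      show _ = -(z : Om L m)
      rw [← hxz, map_sub, map_pow]
      simp
    rw [this]
    exact P.neg_mem hz
  obtain ⟨h1, h2⟩ := c11_relNorm_eq_under (E := ℚ⟮ζ⟯) B hB hB0 hpow
  refine ⟨B, hB, ?_, ?_⟩
  · rw [h2, hBK, hqn]
  · rw [h1, hBK]

end Fermat.Agent.S14.Cross
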