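import Fermat.Agent.S14.Crossing.Statements

/-!
# S14 crossing core, C5: if `L/K` is unramified everywhere then so is `M_H/E_H`  (helper12)
-/

set_option autoImplicit false

open NumberField Polynomial
open scoped nonZeroDivisors IntermediateField

namespace Fermat.Agent.S14.Cross

/-- **C5 (U1b)**: if `L/K` is unramified everywhere then so is `M_H/E_H`. -/
theorem unramEHMH : UnramEHMH := by
  intro L _ _ _ ζ m _ H hL P hP hP0 σ hσ
  -- lift `σ` to `Ω`
  let σ' : Om L m ≃ₐ[EH L ζ m H] Om L m := AlgEquiv.liftNormal σ (Om L m)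
  have hcomm : ∀ y : MH L ζ m H,
      σ' (algebraMap (MH L ζ m H) (Om L m) y) = algebraMap (MH L ζ m H) (Om L m) (σ y) :=
    fun y => AlgEquiv.liftNormal_commutes σ (Om L m) y
  let τ : L ≃ₐ[ℚ⟮ζ⟯] L := resL L ζ m (AlgEquiv.restrictScalarsHom ℚ⟮ζ⟯ σ')
  -- `τ` and `σ` agree on `L`
  have hτσ : ∀ x : L, algebraMap L (MH L ζ m H) (τ x) = σ (algebraMap L (MH L ζ m H) x) := by
    intro x
    apply Subtype.ext
    rw [algebraMap_L_MH_coe]
    have h1 := resL_commutes L ζ m (AlgEquiv.restrictScalarsHom ℚ⟮ζ⟯ σ') x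
    rw [h1]
    have h2 := hcomm (algebraMap L (MH L ζ m H) x)
    exact h2
  have hτ1 : τ = 1 := by
    have hPu : (P.under (𝓞 L)).IsPrime := inferInstance
    have hPu0 : P.under (𝓞 L) ≠ ⊥ := by
      intro hbot
      exact hP0 (Ideal.eq_bot_of_comap_eq_bot hbot)
    refine hL (P.under (𝓞 L)) hPu hPu0 τ ?_
    intro x
    obtain ⟨y, hyP, hy⟩ := hσ (algebraMap (𝓞 L) (𝓞 (MH L ζ m H)) x)
    have hint : IsIntegral ℤ (τ (x : L) - (x : L)) :=
      (map_isIntegral_int τ x.2).sub x.2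
    refine ⟨⟨τ (x : L) - (x : L), hint⟩, ?_, rfl⟩
    rw [Ideal.under_def, Ideal.mem_comap]
    have hyeq : algebraMap (𝓞 L) (𝓞 (MH L ζ m H)) ⟨τ (x : L) - (x : L), hint⟩ = y := by
      apply RingOfIntegers.ext
      rw [← hy]
      show algebraMap L (MH L ζ m H) (τ (x : L) - (x : L)) = _
      rw [map_sub, hτσ]
      rfl
    rw [hyeq]
    exact hyP
  -- hence `σ'` is trivial on `L`, so fixes `M_H`
  have hmem : σ' ∈ HL L ζ m H := hτ1
  ext y
  have h3 := hcomm y
  have h4 : σ' (algebraMap (MH L ζ m H) (Om L m) y) = algebraMap (MH L ζ m H) (Om L m) y := by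
    have := (IntermediateField.mem_fixedField_iff (HL L ζ m H) (y : Om L m)).mp y.2 σ' hmem
    exact this
  rw [h4] at h3
  exact h3.symm

end Fermat.Agent.S14.Cross
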