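import Fermat.Agent.S14.Crossing.Statements
import Fermat.Agent.S14.FinalA

/-!
# S14, crossing: small lemmas for the assembly of `Compare`
-/

set_option autoImplicit false

open NumberField Polynomial
open scoped nonZeroDivisors IntermediateField

noncomputable section

namespace Fermat.Agent.S14.Cross

/-- An automorphism of `L/ℚ` fixing `ζ`, as an automorphism of `L/ℚ(ζ)`. -/
def tauK {L : Type} [Field L] [NumberField L] (ζ : L) (τ : L ≃ₐ[ℚ] L) (hτ : τ ζ = ζ) :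
    L ≃ₐ[ℚ⟮ζ⟯] L :=
  AlgEquiv.ofRingEquiv (f := τ.toRingEquiv) (fun x =>
    (IntermediateField.mem_fixingSubgroup_iff _ _).mp
      ((x9a_mem_fixingSubgroup_iff ζ τ).mpr hτ) x x.2)

@[simp] theorem tauK_apply {L : Type} [Field L] [NumberField L] (ζ : L) (τ : L ≃ₐ[ℚ] L)
    (hτ : τ ζ = ζ) (x : L) : tauK ζ τ hτ x = τ x := rfl

theorem tauK_pow_apply {L : Type} [Field L] [NumberField L] (ζ : L) (τ : L ≃ₐ[ℚ] L)
    (hτ : τ ζ = ζ) (n : ℕ) (x : L) : (tauK ζ τ hτ ^ n) x = (τ ^ n) x := by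
  induction n generalizing x with
  | zero => simp
  | succ n ih => rw [pow_succ, pow_succ, AlgEquiv.mul_apply, AlgEquiv.mul_apply, ih, tauK_apply]

theorem tauK_ne_one {L : Type} [Field L] [NumberField L] (ζ : L) (τ : L ≃ₐ[ℚ] L)
    (hτ : τ ζ = ζ) (h1 : τ ≠ 1) : tauK ζ τ hτ ≠ 1 := by
  intro h
  apply h1
  ext x
  have := DFunLike.congr_fun h x
  simpa using this

/-- The number of automorphisms of `L/ℚ(ζ)`. -/
theorem card_galK {L : Type} [Field L] [NumberField L] [IsGalois ℚ L] (ζ : L) :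
    Nat.card (L ≃ₐ[ℚ⟮ζ⟯] L) = Nat.card {τ : L ≃ₐ[ℚ] L // τ ζ = ζ} := by
  have : IsGalois ℚ⟮ζ⟯ L := IsGalois.tower_top_of_isGalois ℚ ℚ⟮ζ⟯ L
  rw [IsGalois.card_aut_eq_finrank, x9a_finrank]

/-- Chinese remainder theorem for units. -/
theorem exists_unit_crt {r r' : ℕ} [NeZero r] [NeZero r'] (h : r.Coprime r') (a₁ : (ZMod r)ˣ)
    (a₂ : (ZMod r')ˣ) :
    ∃ a : (ZMod (r * r'))ˣ, ZMod.unitsMap (dvd_mul_right r r') a = a₁ ∧
      ZMod.unitsMap (dvd_mul_left r' r) a = a₂ := by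
  obtain ⟨n, hn1, hn2⟩ := Nat.chineseRemainder h (a₁ : ZMod r).val (a₂ : ZMod r').val
  have e1 : ((n : ℕ) : ZMod r) = a₁ := by
    rw [(ZMod.natCast_eq_natCast_iff _ _ _).mpr hn1, ZMod.natCast_val, ZMod.cast_id', id]
  have e2 : ((n : ℕ) : ZMod r') = a₂ := by
    rw [(ZMod.natCast_eq_natCast_iff _ _ _).mpr hn2, ZMod.natCast_val, ZMod.cast_id', id]
  have c1 : n.Coprime r := by
    rw [← ZMod.isUnit_iff_coprime, e1]; exact a₁.isUnit
  have c2 : n.Coprime r' := by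
    rw [← ZMod.isUnit_iff_coprime, e2]; exact a₂.isUnit
  refine ⟨ZMod.unitOfCoprime n (Nat.Coprime.mul_right c1 c2), Units.ext ?_, Units.ext ?_⟩
  · rw [ZMod.unitsMap_val, ZMod.coe_unitOfCoprime, ZMod.cast_natCast (dvd_mul_right r r'), e1]
  · rw [ZMod.unitsMap_val, ZMod.coe_unitOfCoprime, ZMod.cast_natCast (dvd_mul_left r' r), e2]

/-- If `n ∈ I` and `I ≠ ⊤` then `absNorm I` is not coprime to `n`. -/
theorem natCast_not_mem_of_coprime {E : Type} [Field E] [NumberField E] {I : Ideal (𝓞 E)}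
    (hI : I ≠ ⊤) {n : ℕ} (h : (Ideal.absNorm I).Coprime n) : (n : 𝓞 E) ∉ I := by
  intro hn
  apply hI
  rw [Ideal.eq_top_iff_one]
  have h1 : ((Ideal.absNorm I : ℕ) : 𝓞 E) ∈ I := by
    have := Ideal.absNorm_mem I
    exact_mod_cast this
  have h2 : ((Ideal.absNorm I : ℤ) * Nat.gcdA (Ideal.absNorm I) n +
      (n : ℤ) * Nat.gcdB (Ideal.absNorm I) n : ℤ) = 1 := by
    rw [← Nat.gcd_eq_gcd_ab, h.gcd_eq_one, Nat.cast_one]
  have h3 : ((((Ideal.absNorm I : ℤ) * Nat.gcdA (Ideal.absNorm I) n +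
      (n : ℤ) * Nat.gcdB (Ideal.absNorm I) n : ℤ)) : 𝓞 E) ∈ I := by
    push_cast
    exact I.add_mem (I.mul_mem_right _ h1) (I.mul_mem_right _ hn)
  rw [h2] at h3
  simpa using h3

instance isScalarTower_K_EH_MH (L : Type) [Field L] [NumberField L] [IsGalois ℚ L] (ζ : L)
    (m : ℕ) [NeZero m] (H : Subgroup (Gam L ζ m)) :
    IsScalarTower ℚ⟮ζ⟯ (EH L ζ m H) (MH L ζ m H) :=
  IsScalarTower.of_algebraMap_eq (fun _ => rfl)

end Fermat.Agent.S14.Cross
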