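import Fermat.Agent.S14.Crossing.CompareBasic

/-!
# S14, crossing: characters for the assembly of `Compare`
-/

set_option autoImplicit false

open NumberField Polynomial
open scoped nonZeroDivisors IntermediateField

noncomputable section

namespace Fermat.Agent.S14.Cross

/-- `p ∣ orderOf (ℓ mod r)` implies `r ≡ 1 mod p`. -/
theorem mod_eq_one_of_dvd_orderOf {p r ℓ : ℕ} (hp : p.Prime) (hr : r.Prime)
    (hℓr : (ℓ : ZMod r) ≠ 0) (h : p ∣ orderOf (ℓ : ZMod r)) : r % p = 1 := by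
  have : Fact r.Prime := ⟨hr⟩
  have h1 : orderOf (ℓ : ZMod r) ∣ r - 1 :=
    orderOf_dvd_of_pow_eq_one (ZMod.pow_card_sub_one_eq_one hℓr)
  obtain ⟨t, ht⟩ := h.trans h1
  have h2 : r = p * t + 1 := by have := hr.one_le; omega
  rw [h2, Nat.mul_add_mod, Nat.mod_eq_of_lt hp.one_lt]

/-- A character of a group of prime order `p` with prescribed value `ω` (`ω ^ p = 1`) at a
nontrivial element. -/
theorem exists_char_of_prime_card {G : Type*} [Group G] {p : ℕ} (hp : p.Prime)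
    (hG : Nat.card G = p) {g : G} (hg : g ≠ 1) (ω : ℂˣ) (hω : ω ^ p = 1) :
    ∃ ψ : G →* ℂˣ, ψ g = ω := by
  have : Fact p.Prime := ⟨hp⟩
  have hgen : ∀ x, x ∈ Subgroup.zpowers g := fun x => mem_zpowers_of_prime_card hG hg
  have hord : orderOf g = p := by
    have : Finite G := Nat.finite_of_card_ne_zero (hG ▸ hp.ne_zero)
    have h1 : g ^ p = 1 := by rw [← hG]; exact pow_card_eq_one'
    exact orderOf_eq_prime h1 hg
  refine ⟨monoidHomOfForallMemZpowers hgen (g' := ω) ?_, monoidHomOfForallMemZpowers_apply_gen _ _⟩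
  rw [hord]
  exact orderOf_dvd_of_pow_eq_one hω

/-- In a group of prime order `p`, the values of a character are values of a Dirichlet character
`χ` whose value at `ℓ` is a primitive `p`-th root of unity. -/
theorem im_le_of_prim {G : Type*} [Group G] {p : ℕ} (hp : p.Prime) (hG : Nat.card G = p)
    (ψ : G →* ℂˣ) {r ℓ : ℕ} (χ : DirichletCharacter ℂ r) (hℓr : ℓ.Coprime r) {ω : ℂ}
    (hω : IsPrimitiveRoot ω p) (hχ : χ (ℓ : ZMod r) = ω) (σ : G) :
    ∃ a : (ZMod r)ˣ, χ (a : ZMod r) = ((ψ σ : ℂˣ) : ℂ) := by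
  have : NeZero p := ⟨hp.ne_zero⟩
  have : Finite G := Nat.finite_of_card_ne_zero (hG ▸ hp.ne_zero)
  have h1 : ((ψ σ : ℂˣ) : ℂ) ^ p = 1 := by
    rw [← Units.val_pow_eq_pow_val, ← map_pow, ← hG, pow_card_eq_one', map_one, Units.val_one]
  obtain ⟨i, -, hi⟩ := hω.eq_pow_of_pow_eq_one h1
  refine ⟨ZMod.unitOfCoprime ℓ hℓr ^ i, ?_⟩
  rw [Units.val_pow_eq_pow_val, ZMod.coe_unitOfCoprime, map_pow, hχ, hi]

end Fermat.Agent.S14.Cross
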