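import Fermat.Agent.S14.CrossingInterface
import Fermat.Agent.S14.NormClassesSubgroup

/-!
# S14, crossing: the class group computation (abstract form)

`K ⊆ L` of degree `p`; two auxiliary pairs `(E₁, M₁)`, `(E₂, M₂)` over `K` with `L ⊆ M_i`, in which
the ideals killed by the character `χ_i` are norm classes; a common overfield `E₃ ⊇ E₁, E₂`
carrying an ideal `P₃` with `χ₁(N P₃) = χ₂(N P₃) = ω ^ k`, `p ∤ k`.  Then for ideals `B_i` of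
`E_i` of norm `ℓ` with `χ₁(ℓ) = ω`, `χ₂(ℓ) = ω ^ u`:
`[N_{E₂/K} B₂] = [N_{E₁/K} B₁] ^ u` modulo norm classes of `L/K`.
-/

set_option autoImplicit false

open NumberField
open scoped nonZeroDivisors

namespace Fermat.Agent.S14.Cross

/-- In a group, `x ^ a ∈ N`, `x ^ b ∈ N` and `gcd(a, b) = 1` imply `x ∈ N`. -/
theorem ca_mem_of_pow_mem {G : Type*} [Group G] (N : Subgroup G) {x : G} {a b : ℕ}
    (hab : Nat.Coprime a b) (ha : x ^ a ∈ N) (hb : x ^ b ∈ N) : x ∈ N := by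
  have h1 : (x ^ a) ^ (Nat.gcdA a b) * (x ^ b) ^ (Nat.gcdB a b) = x := by
    rw [← zpow_natCast, ← zpow_natCast, ← zpow_mul, ← zpow_mul, ← zpow_add,
      ← Nat.gcd_eq_gcd_ab, hab.gcd_eq_one, Nat.cast_one, zpow_one]
  rw [← h1]
  exact N.mul_mem (N.zpow_mem ha _) (N.zpow_mem hb _)

/-- Pure group theory behind the crossing argument. -/
theorem ca_group {G : Type*} [CommGroup G] (N : Subgroup G) {p u j k : ℕ} (hp : p.Prime)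
    (hpow : ∀ x : G, x ^ p ∈ N) (hk : ¬ p ∣ k) (hujk : u * j ≡ k [MOD p])
    {a a' b : G} (h1 : a ^ k * b ∈ N) (h2 : a' ^ j * b ∈ N) :
    ∃ c ∈ N, a' = a ^ u * c := by
  have hj : ¬ p ∣ j := by
    intro hj
    apply hk
    have : u * j ≡ 0 [MOD p] := (Nat.modEq_zero_iff_dvd).mpr (Dvd.dvd.mul_left hj u)
    exact (Nat.modEq_zero_iff_dvd).mp (hujk.symm.trans this)
  -- a ^ k * (a' ^ j)⁻¹ ∈ N
  have h3 : a ^ k * (a' ^ j)⁻¹ ∈ N := by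
    have := N.mul_mem h1 (N.inv_mem h2)
    have e : a ^ k * b * (a' ^ j * b)⁻¹ = a ^ k * (a' ^ j)⁻¹ := by
      rw [mul_inv, mul_mul_mul_comm, mul_inv_cancel, mul_one]
    rwa [e] at this
  -- a ^ (u * j) ≡ a ^ k mod N
  have h4 : a ^ (u * j) * (a ^ k)⁻¹ ∈ N := by
    rcases Nat.le_total k (u * j) with hle | hle
    · obtain ⟨t, ht⟩ := (Nat.modEq_iff_dvd' hle).mp hujk.symm
      have : a ^ (u * j) = a ^ k * (a ^ t) ^ p := by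
        rw [← pow_mul, ← pow_add, mul_comm t p, ← ht, Nat.add_sub_cancel' hle]
      rw [this, mul_comm (a ^ k), mul_assoc, mul_inv_cancel, mul_one]
      exact hpow _
    · obtain ⟨t, ht⟩ := (Nat.modEq_iff_dvd' hle).mp hujk
      have : a ^ k = a ^ (u * j) * (a ^ t) ^ p := by
        rw [← pow_mul, ← pow_add, mul_comm t p, ← ht, Nat.add_sub_cancel' hle]
      rw [this, mul_inv, ← mul_assoc, mul_inv_cancel, one_mul]
      exact N.inv_mem (hpow _)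
  have h5 : (a ^ u * a'⁻¹) ^ j ∈ N := by
    have := N.mul_mem h4 h3
    have e : a ^ (u * j) * (a ^ k)⁻¹ * (a ^ k * (a' ^ j)⁻¹) = (a ^ u * a'⁻¹) ^ j := by
      rw [mul_pow, ← pow_mul, inv_pow, mul_assoc, inv_mul_cancel_left]
    rwa [e] at this
  have h6 : a ^ u * a'⁻¹ ∈ N :=
    ca_mem_of_pow_mem N ((Nat.coprime_comm.mp ((Nat.Prime.coprime_iff_not_dvd hp).mpr hj)))
      h5 (hpow _)
  refine ⟨(a ^ u * a'⁻¹)⁻¹, N.inv_mem h6, ?_⟩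
  rw [mul_inv, inv_inv, mul_inv_cancel_left]

section abstract

variable (K L E₁ M₁ E₂ M₂ E₃ : Type)
  [Field K] [NumberField K] [Field L] [NumberField L]
  [Field E₁] [NumberField E₁] [Field M₁] [NumberField M₁]
  [Field E₂] [NumberField E₂] [Field M₂] [NumberField M₂]
  [Field E₃] [NumberField E₃]
  [Algebra K L]
  [Algebra K E₁] [Algebra E₁ M₁] [Algebra L M₁] [Algebra K M₁]
  [IsScalarTower K E₁ M₁] [IsScalarTower K L M₁]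
  [Algebra K E₂] [Algebra E₂ M₂] [Algebra L M₂] [Algebra K M₂]
  [IsScalarTower K E₂ M₂] [IsScalarTower K L M₂]
  [Algebra K E₃] [Algebra E₁ E₃] [Algebra E₂ E₃] [IsScalarTower K E₁ E₃] [IsScalarTower K E₂ E₃]

/-- One half of the crossing: the class of `N_{E/K}(B) ^ k * N_{E₃/K}(P₃) ^ e` is a norm class of
`L/K` as soon as `χ` kills the norm of `B ^ k * N_{E₃/E}(P₃) ^ e`. -/
theorem ca_half (hNF : NormFunct) {r ℓ k e : ℕ}
    (E M : Type) [Field E] [NumberField E] [Field M] [NumberField M]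
    [Algebra K E] [Algebra E M] [Algebra L M] [Algebra K M]
    [IsScalarTower K E M] [IsScalarTower K L M] [Algebra E E₃] [IsScalarTower K E E₃]
    (χ : DirichletCharacter ℂ r)
    (hE : ∀ I : (Ideal (𝓞 E))⁰, (Ideal.absNorm (I : Ideal (𝓞 E))).Coprime r →
      χ ((Ideal.absNorm (I : Ideal (𝓞 E)) : ℕ) : ZMod r) = 1 →
      ClassGroup.mk0 I ∈ normClasses E M)
    (B : Ideal (𝓞 E)) (P₃ : Ideal (𝓞 E₃)) (hP₃ : P₃ ≠ ⊥)
    (hB : Ideal.absNorm B = ℓ) (hℓ : ℓ.Coprime r) (hP : (Ideal.absNorm P₃).Coprime r)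
    (hχ : χ (ℓ : ZMod r) ^ k * χ ((Ideal.absNorm P₃ : ℕ) : ZMod r) ^ e = 1)
    (q A : (Ideal (𝓞 K))⁰) (hq : (q : Ideal (𝓞 K)) = Ideal.relNorm (𝓞 K) B)
    (hA : (A : Ideal (𝓞 K)) = Ideal.relNorm (𝓞 K) P₃) :
    ClassGroup.mk0 q ^ k * ClassGroup.mk0 A ^ e ∈ normClasses K L := by
  have hB0 : B ≠ ⊥ := by
    intro h
    have h1 : (q : Ideal (𝓞 K)) = ⊥ := by rw [hq, h, Ideal.relNorm_bot]
    exact nonZeroDivisors.coe_ne_zero q h1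
  have hA₁0 : Ideal.relNorm (𝓞 E) P₃ ≠ ⊥ := by
    rw [Ne, Ideal.relNorm_eq_bot_iff]; exact hP₃
  have hI0 : B ^ k * Ideal.relNorm (𝓞 E) P₃ ^ e ≠ ⊥ :=
    mul_ne_zero (pow_ne_zero _ hB0) (pow_ne_zero _ hA₁0)
  have hnorm : Ideal.absNorm (B ^ k * Ideal.relNorm (𝓞 E) P₃ ^ e) =
      ℓ ^ k * Ideal.absNorm P₃ ^ e := by
    rw [map_mul, map_pow, map_pow, hB, Ideal.absNorm_relNorm]
  have hmem := hE ⟨B ^ k * Ideal.relNorm (𝓞 E) P₃ ^ e, mem_nonZeroDivisors_of_ne_zero hI0⟩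
    (by
      show (Ideal.absNorm (B ^ k * Ideal.relNorm (𝓞 E) P₃ ^ e)).Coprime r
      rw [hnorm]
      exact Nat.Coprime.mul_left (Nat.Coprime.pow_left _ hℓ) (Nat.Coprime.pow_left _ hP))
    (by
      show χ ((Ideal.absNorm (B ^ k * Ideal.relNorm (𝓞 E) P₃ ^ e) : ℕ) : ZMod r) = 1
      rw [hnorm, Nat.cast_mul, Nat.cast_pow, Nat.cast_pow, map_mul, map_pow, map_pow, hχ])
  have hfin := hNF K L E M ⟨B ^ k * Ideal.relNorm (𝓞 E) P₃ ^ e,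
    mem_nonZeroDivisors_of_ne_zero hI0⟩ (q ^ k * A ^ e) hmem (by
      show ((q ^ k * A ^ e : (Ideal (𝓞 K))⁰) : Ideal (𝓞 K)) =
        Ideal.relNorm (𝓞 K) (B ^ k * Ideal.relNorm (𝓞 E) P₃ ^ e)
      rw [map_mul, map_pow, map_pow, Ideal.relNorm_relNorm, Submonoid.coe_mul,
        SubmonoidClass.coe_pow, SubmonoidClass.coe_pow, hq, hA])
  rwa [map_mul, map_pow, map_pow] at hfin

/-- **Abstract crossing lemma.** -/
theorem crossAbstract (hNF : NormFunct) {p r₁ r₂ ℓ u k : ℕ} (hp : p.Prime) (hk : ¬ p ∣ k)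
    (hu : ¬ p ∣ u) (hLK : Module.finrank K L = p)
    (χ₁ : DirichletCharacter ℂ r₁) (χ₂ : DirichletCharacter ℂ r₂) (ω : ℂ) (hω : ω ^ p = 1)
    (hχ₁ : χ₁ (ℓ : ZMod r₁) = ω) (hχ₂ : χ₂ (ℓ : ZMod r₂) = ω ^ u)
    (hE₁ : ∀ I : (Ideal (𝓞 E₁))⁰, (Ideal.absNorm (I : Ideal (𝓞 E₁))).Coprime r₁ →
      χ₁ ((Ideal.absNorm (I : Ideal (𝓞 E₁)) : ℕ) : ZMod r₁) = 1 →
      ClassGroup.mk0 I ∈ normClasses E₁ M₁)
    (hE₂ : ∀ I : (Ideal (𝓞 E₂))⁰, (Ideal.absNorm (I : Ideal (𝓞 E₂))).Coprime r₂ →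
      χ₂ ((Ideal.absNorm (I : Ideal (𝓞 E₂)) : ℕ) : ZMod r₂) = 1 →
      ClassGroup.mk0 I ∈ normClasses E₂ M₂)
    (B₁ : Ideal (𝓞 E₁)) (B₂ : Ideal (𝓞 E₂)) (P₃ : Ideal (𝓞 E₃)) (hP₃ : P₃ ≠ ⊥)
    (hB₁ : Ideal.absNorm B₁ = ℓ) (hB₂ : Ideal.absNorm B₂ = ℓ)
    (hℓ₁ : ℓ.Coprime r₁) (hℓ₂ : ℓ.Coprime r₂)
    (hP₁ : (Ideal.absNorm P₃).Coprime r₁) (hP₂ : (Ideal.absNorm P₃).Coprime r₂)
    (hχP₁ : χ₁ ((Ideal.absNorm P₃ : ℕ) : ZMod r₁) = ω ^ k)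
    (hχP₂ : χ₂ ((Ideal.absNorm P₃ : ℕ) : ZMod r₂) = ω ^ k)
    (q₁ q₂ : (Ideal (𝓞 K))⁰) (hq₁ : (q₁ : Ideal (𝓞 K)) = Ideal.relNorm (𝓞 K) B₁)
    (hq₂ : (q₂ : Ideal (𝓞 K)) = Ideal.relNorm (𝓞 K) B₂) :
    ∃ c ∈ normClasses K L, ClassGroup.mk0 q₂ = ClassGroup.mk0 q₁ ^ u * c := by
  have : Fact p.Prime := ⟨hp⟩
  -- the exponent `j` with `u * j ≡ k mod p`
  have hu0 : (u : ZMod p) ≠ 0 := by
    rwa [Ne, ZMod.natCast_eq_zero_iff]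
  obtain ⟨j, hj⟩ : ∃ j : ℕ, u * j ≡ k [MOD p] := by
    refine ⟨((u : ZMod p)⁻¹ * (k : ZMod p)).val, ?_⟩
    rw [← ZMod.natCast_eq_natCast_iff, Nat.cast_mul, ZMod.natCast_val, ZMod.cast_id', id,
      ← mul_assoc, mul_inv_cancel₀ hu0, one_mul]
  obtain ⟨t, ht⟩ : ∃ t : ℕ, u * j + k * (p - 1) = p * t := by
    have h1 : u * j + k * (p - 1) ≡ 0 [MOD p] := by
      have h2 : u * j + k * (p - 1) ≡ k + k * (p - 1) [MOD p] := Nat.ModEq.add_right _ hj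
      have h3 : k + k * (p - 1) = p * k := by
        have := hp.one_le
        conv_lhs => rw [← mul_one k, mul_assoc, one_mul, ← mul_add, Nat.add_sub_cancel' this]
        exact mul_comm _ _
      rw [h3] at h2
      exact h2.trans ((Nat.modEq_zero_iff_dvd).mpr (dvd_mul_right p k))
    exact (Nat.modEq_zero_iff_dvd).mp h1
  have hA0 : Ideal.relNorm (𝓞 K) P₃ ≠ ⊥ := by
    rw [Ne, Ideal.relNorm_eq_bot_iff]; exact hP₃
  set A : (Ideal (𝓞 K))⁰ := ⟨Ideal.relNorm (𝓞 K) P₃, mem_nonZeroDivisors_of_ne_zero hA0⟩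
  have h1 := ca_half K L E₃ hNF E₁ M₁ χ₁ hE₁ B₁ P₃ hP₃ hB₁ hℓ₁ hP₁ (k := k) (e := p - 1)
    (by
      rw [hχ₁, hχP₁, ← pow_mul, ← pow_add]
      have : k + k * (p - 1) = p * k := by
        have := hp.one_le
        conv_lhs => rw [← mul_one k, mul_assoc, one_mul, ← mul_add, Nat.add_sub_cancel' this]
        exact mul_comm _ _
      rw [this, pow_mul, hω, one_pow]) q₁ A hq₁ rfl
  have h2 := ca_half K L E₃ hNF E₂ M₂ χ₂ hE₂ B₂ P₃ hP₃ hB₂ hℓ₂ hP₂ (k := j) (e := p - 1)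
    (by
      rw [hχ₂, hχP₂, ← pow_mul, ← pow_mul, ← pow_add, ht, pow_mul, hω, one_pow]) q₂ A hq₂ rfl
  obtain ⟨N, hN, hNpow⟩ := normClassesSubgroup K L
  rw [hLK] at hNpow
  have h1' : ClassGroup.mk0 q₁ ^ k * ClassGroup.mk0 A ^ (p - 1) ∈ N := by
    rw [← SetLike.mem_coe, hN]; exact h1
  have h2' : ClassGroup.mk0 q₂ ^ j * ClassGroup.mk0 A ^ (p - 1) ∈ N := by
    rw [← SetLike.mem_coe, hN]; exact h2
  obtain ⟨c, hc, hcq⟩ := ca_group N hp hNpow hk hj h1' h2'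
  refine ⟨c, ?_, hcq⟩
  rw [← hN]; exact hc

end abstract

end Fermat.Agent.S14.Cross
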