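import Fermat.Agent.S14.Crossing.CompareHalf

/-!
# S14, crossing: the common overfield `E₃` and its non-norm prime
-/

set_option autoImplicit false

open NumberField Polynomial
open scoped nonZeroDivisors IntermediateField

noncomputable section

namespace Fermat.Agent.S14.Cross

variable {L : Type} [Field L] [NumberField L] [IsGalois ℚ L] {ζ : L} {m : ℕ} [NeZero m]

/-- In `E_H` (with `resL H = Gal(L/K)`) there is a prime ideal prime to `m` with a Frobenius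
element `g ∈ H` which is nontrivial on `L`. -/
theorem cmp_third (hNN : NonNormPrime) (hU1a : FinrankEHMH) (hU1b : UnramEHMH)
    (hF1 : ExistsFrob) (hF1' : CycFrob) (hF2 : SplitIsNorm)
    (p : ℕ) (H : Subgroup (Gam L ζ m)) (hp : p.Prime) (hp2 : p ≠ 2)
    (hcard : Nat.card (L ≃ₐ[ℚ⟮ζ⟯] L) = p) (hunr : UnramifiedEverywhere ℚ⟮ζ⟯ L)
    (hsH : ∀ σ : L ≃ₐ[ℚ⟮ζ⟯] L, ∃ g ∈ H, resL L ζ m g = σ) :
    ∃ (P₃ : Ideal (𝓞 (EH L ζ m H))) (g : Gam L ζ m), P₃ ≠ ⊥ ∧ (Ideal.absNorm P₃).Coprime m ∧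
      g ∈ H ∧ resL L ζ m g ≠ 1 ∧
      ((cyc L ζ m g : (ZMod m)ˣ) : ZMod m) = ((Ideal.absNorm P₃ : ℕ) : ZMod m) := by
  have hKL : Module.finrank ℚ⟮ζ⟯ L = p := by
    have : IsGalois ℚ⟮ζ⟯ L := IsGalois.tower_top_of_isGalois ℚ ℚ⟮ζ⟯ L
    rw [← IsGalois.card_aut_eq_finrank, hcard]
  obtain ⟨P₃, hP₃p, hP₃m, hP₃n⟩ := hNN p (EH L ζ m H) (MH L ζ m H) m hp hp2
    (by rw [hU1a L ζ m H hsH, hKL]) (hU1b L ζ m H hunr) (NeZero.ne m)
  have hP₃0 : (P₃ : Ideal (𝓞 (EH L ζ m H))) ≠ ⊥ := nonZeroDivisors.coe_ne_zero P₃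
  obtain ⟨g, P, hgF, hPp, hPu, hFrob⟩ := hF1 L ζ m (EH L ζ m H) P₃ hP₃p hP₃0
  have hgH : g ∈ H := by
    rwa [IntermediateField.fixingSubgroup_fixedField] at hgF
  refine ⟨P₃, g, hP₃0, hP₃m, hgH, ?_, ?_⟩
  · intro h1
    exact hP₃n (hF2 L ζ m H P₃ g P hunr hP₃p hgH hPp hPu hFrob h1)
  · have hmP : (m : 𝓞 (Om L m)) ∉ P := by
      intro hm
      have h2 : (m : 𝓞 (EH L ζ m H)) ∈ (P₃ : Ideal (𝓞 (EH L ζ m H))) := by
        rw [← hPu, Ideal.under_def, Ideal.mem_comap, map_natCast]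
        exact hm
      exact natCast_not_mem_of_coprime hP₃p.ne_top hP₃m h2
    have := hF1' L ζ m g P _ m (dvd_refl m) hPp hFrob hmP
    rwa [ZMod.unitsMap_self] at this

end Fermat.Agent.S14.Cross
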