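import Fermat.Agent.S14.Crossing.Abstract
import Fermat.Agent.S14.Crossing.CompareThird
import Fermat.Agent.S14.Crossing.CompareChar

/-!
# S14, crossing: assembly of `Compare` (C15)
-/

set_option autoImplicit false

open NumberField Polynomial
open scoped nonZeroDivisors IntermediateField

noncomputable section

namespace Fermat.Agent.S14.Cross

/-- `Compare` from the pieces of the crossing core. -/
theorem compareImp_of (hG3 : GamSurj) (hU1a : FinrankEHMH) (hU1b : UnramEHMH) (hF1 : ExistsFrob)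
    (hF1' : CycFrob) (hF2 : SplitIsNorm) (hb : ChiNormMH) (hc : SplitPrimeEH)
    (ha : NormResidue) : CompareImp := by
  intro _ hERec hNF hAuxP hAuxC _ hNN p L _ _ _ ζ hp hp3 hζ hcard hconj hunr ℓ u Q Q' τ q q' hℓ hℓ1 hu hQ hQ'
  intro hℓQ hℓQ' hτ hτ1 hF hF' hq hq'
  have hp2 : p ≠ 2 := by omega
  have hunrK : UnramifiedEverywhere ℚ⟮ζ⟯ L := x9a_unramified ζ hunr
  have hcardK : Nat.card (L ≃ₐ[ℚ⟮ζ⟯] L) = p := (card_galK ζ).trans hcard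
  have hτK1 : tauK ζ τ hτ ≠ 1 := tauK_ne_one ζ τ hτ hτ1
  have hKL : Module.finrank ℚ⟮ζ⟯ L = p := by rw [x9a_finrank, hcard]
  -- auxiliary primes
  obtain ⟨r, r', hr, hr', hrr', hrp, hr'p, hrℓ, hr'ℓ, hord, hord'⟩ := hAuxP p ℓ hp hp2 hℓ hℓ1
  have hℓr : ℓ.Coprime r := (Nat.coprime_primes hℓ hr).mpr (Ne.symm hrℓ)
  have hℓr' : ℓ.Coprime r' := (Nat.coprime_primes hℓ hr').mpr (Ne.symm hr'ℓ)
  have hℓr0 : (ℓ : ZMod r) ≠ 0 := by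
    rw [Ne, ZMod.natCast_eq_zero_iff]
    exact fun h => hrℓ ((Nat.prime_dvd_prime_iff_eq hr hℓ).mp h)
  have hℓr'0 : (ℓ : ZMod r') ≠ 0 := by
    rw [Ne, ZMod.natCast_eq_zero_iff]
    exact fun h => hr'ℓ ((Nat.prime_dvd_prime_iff_eq hr' hℓ).mp h)
  have hr1 : r % p = 1 := mod_eq_one_of_dvd_orderOf hp hr hℓr0 hord
  have hr'1 : r' % p = 1 := mod_eq_one_of_dvd_orderOf hp hr' hℓr'0 hord'
  have hcop : r.Coprime r' := (Nat.coprime_primes hr hr').mpr hrr'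
  have : NeZero r := ⟨hr.ne_zero⟩
  have : NeZero r' := ⟨hr'.ne_zero⟩
  have : NeZero (r * r') := ⟨mul_ne_zero hr.ne_zero hr'.ne_zero⟩
  have hrm : r ∣ r * r' := dvd_mul_right r r'
  have hr'm : r' ∣ r * r' := dvd_mul_left r' r
  have hmr : (r * r' / r).Coprime r := by
    rw [Nat.mul_div_cancel_left _ hr.pos]; exact hcop.symm
  have hmr' : (r * r' / r').Coprime r' := by
    rw [Nat.mul_div_cancel _ hr'.pos]; exact hcop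
  have hmp : (r * r').Coprime p :=
    Nat.Coprime.mul_left ((Nat.coprime_primes hr hp).mpr hrp) ((Nat.coprime_primes hr' hp).mpr hr'p)
  have hℓm : ℓ.Coprime (r * r') := Nat.Coprime.mul_right hℓr hℓr'
  -- characters
  have hω₀ : IsPrimitiveRoot (Complex.exp (2 * Real.pi * Complex.I / p)) p :=
    Complex.isPrimitiveRoot_exp p hp.ne_zero
  set ω₀ : ℂ := Complex.exp (2 * Real.pi * Complex.I / p) with hω₀def
  have hω₀u : IsPrimitiveRoot (ω₀ ^ u) p :=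
    hω₀.pow_of_coprime u ((Nat.coprime_comm.mp ((Nat.Prime.coprime_iff_not_dvd hp).mpr hu)))
  obtain ⟨ψ, hψ⟩ := exists_char_of_prime_card hp hcardK hτK1
    (Units.mk0 ω₀ (hω₀.ne_zero hp.ne_zero)) (by
      apply Units.ext
      rw [Units.val_pow_eq_pow_val, Units.val_mk0, hω₀.pow_eq_one, Units.val_one])
  have hψ' : ((ψ (tauK ζ τ hτ) : ℂˣ) : ℂ) = ω₀ := by rw [hψ, Units.val_mk0]
  obtain ⟨χ₁, hχ₁, hχ₁pow⟩ := hAuxC p r ℓ ω₀ hp hr hℓr0 hord hω₀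
  obtain ⟨χ₂, hχ₂, hχ₂pow⟩ := hAuxC p r' ℓ (ω₀ ^ u) hp hr' hℓr'0 hord' hω₀u
  have him₁ := im_le_of_prim hp hcardK ψ χ₁ hℓr hω₀ hχ₁
  have him₂ := im_le_of_prim hp hcardK ψ χ₂ hℓr' hω₀u hχ₂
  -- surjectivity
  have hsurj := hG3 p L ζ (r * r') hp hp3 hζ hcard hconj hmp
  -- the two halves
  obtain ⟨hE₁, B₁, hB₁p, hB₁n, hB₁r⟩ := cmp_half hERec hU1a hU1b hb hc ha p r hrm ψ χ₁ hp hp2 hζ
    hcardK hunrK hr hr1 hmr hsurj hχ₁pow him₁ ℓ Q (tauK ζ τ hτ) hℓ hℓ1 hℓm hℓr hQ hℓQ hF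
    (by rw [hχ₁, hψ']) (by rw [hχ₁]; exact hω₀.ne_one hp.one_lt)
  obtain ⟨hE₂, B₂, hB₂p, hB₂n, hB₂r⟩ := cmp_half hERec hU1a hU1b hb hc ha p r' hr'm ψ χ₂ hp hp2
    hζ hcardK hunrK hr' hr'1 hmr' hsurj hχ₂pow him₂ ℓ Q' (tauK ζ τ hτ ^ u) hℓ hℓ1 hℓm hℓr' hQ'
    hℓQ' (fun x => by
      obtain ⟨y, hy, hxy⟩ := hF' x
      exact ⟨y, hy, by rw [tauK_pow_apply]; exact hxy⟩)
    (by rw [hχ₂, map_pow, Units.val_pow_eq_pow_val, hψ'])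
    (by rw [hχ₂]; exact hω₀u.ne_one hp.one_lt)
  -- the third field
  obtain ⟨P₃, g₃, hP₃0, hP₃m, hg₃H, hres₃, hcyc₃⟩ := cmp_third hNN hU1a hU1b hF1 hF1' hF2 p
    ((Theta L ζ (r * r') ψ hrm χ₁).ker ⊓ (Theta L ζ (r * r') ψ hr'm χ₂).ker) hp hp2 hcardK hunrK
    (by
      intro σ
      obtain ⟨a₁, ha₁⟩ := him₁ σ
      obtain ⟨a₂, ha₂⟩ := him₂ σ
      obtain ⟨a, haa₁, haa₂⟩ := exists_unit_crt hcop a₁ a₂
      obtain ⟨g, hg1, hg2⟩ := hsurj σ a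
      refine ⟨g, Subgroup.mem_inf.mpr ⟨(mem_ker_theta_iff ψ hrm χ₁ g).mpr ?_,
        (mem_ker_theta_iff ψ hr'm χ₂ g).mpr ?_⟩, hg1⟩
      · rw [hg2, haa₁, ha₁, hg1]
      · rw [hg2, haa₂, ha₂, hg1])
  have : Fact p.Prime := ⟨hp⟩
  obtain ⟨k, hk⟩ : ∃ k : ℕ, tauK ζ τ hτ ^ k = resL L ζ (r * r') g₃ :=
    (Submonoid.mem_powers_iff _ _).mp (mem_powers_of_prime_card hcardK hτK1)
  have hkp : ¬ p ∣ k := by
    rintro ⟨t, rfl⟩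
    apply hres₃
    have : Finite (L ≃ₐ[ℚ⟮ζ⟯] L) := Nat.finite_of_card_ne_zero (hcardK ▸ hp.ne_zero)
    rw [← hk, pow_mul, ← hcardK, pow_card_eq_one', one_pow]
  have hχP₁ : χ₁ ((Ideal.absNorm P₃ : ℕ) : ZMod r) = ω₀ ^ k := by
    have h1 := (mem_ker_theta_iff ψ hrm χ₁ g₃).mp (Subgroup.mem_inf.mp hg₃H).1
    rw [ZMod.unitsMap_val, hcyc₃, ZMod.cast_natCast hrm, ← hk, map_pow,
      Units.val_pow_eq_pow_val, hψ'] at h1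
    exact h1
  have hχP₂ : χ₂ ((Ideal.absNorm P₃ : ℕ) : ZMod r') = ω₀ ^ k := by
    have h1 := (mem_ker_theta_iff ψ hr'm χ₂ g₃).mp (Subgroup.mem_inf.mp hg₃H).2
    rw [ZMod.unitsMap_val, hcyc₃, ZMod.cast_natCast hr'm, ← hk, map_pow,
      Units.val_pow_eq_pow_val, hψ'] at h1
    exact h1
  -- towers
  have h13 : EH L ζ (r * r') (Theta L ζ (r * r') ψ hrm χ₁).ker ≤
      EH L ζ (r * r') ((Theta L ζ (r * r') ψ hrm χ₁).ker ⊓ (Theta L ζ (r * r') ψ hr'm χ₂).ker) :=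
    IntermediateField.fixedField_le inf_le_left
  have h23 : EH L ζ (r * r') (Theta L ζ (r * r') ψ hr'm χ₂).ker ≤
      EH L ζ (r * r') ((Theta L ζ (r * r') ψ hrm χ₁).ker ⊓ (Theta L ζ (r * r') ψ hr'm χ₂).ker) :=
    IntermediateField.fixedField_le inf_le_right
  let _ : Algebra (EH L ζ (r * r') (Theta L ζ (r * r') ψ hrm χ₁).ker)
      (EH L ζ (r * r') ((Theta L ζ (r * r') ψ hrm χ₁).ker ⊓ (Theta L ζ (r * r') ψ hr'm χ₂).ker)) :=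
    (IntermediateField.inclusion h13).toRingHom.toAlgebra
  let _ : Algebra (EH L ζ (r * r') (Theta L ζ (r * r') ψ hr'm χ₂).ker)
      (EH L ζ (r * r') ((Theta L ζ (r * r') ψ hrm χ₁).ker ⊓ (Theta L ζ (r * r') ψ hr'm χ₂).ker)) :=
    (IntermediateField.inclusion h23).toRingHom.toAlgebra
  have : IsScalarTower ℚ⟮ζ⟯ (EH L ζ (r * r') (Theta L ζ (r * r') ψ hrm χ₁).ker)
      (EH L ζ (r * r') ((Theta L ζ (r * r') ψ hrm χ₁).ker ⊓ (Theta L ζ (r * r') ψ hr'm χ₂).ker)) :=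
    IsScalarTower.of_algebraMap_eq (fun _ => rfl)
  have : IsScalarTower ℚ⟮ζ⟯ (EH L ζ (r * r') (Theta L ζ (r * r') ψ hr'm χ₂).ker)
      (EH L ζ (r * r') ((Theta L ζ (r * r') ψ hrm χ₁).ker ⊓ (Theta L ζ (r * r') ψ hr'm χ₂).ker)) :=
    IsScalarTower.of_algebraMap_eq (fun _ => rfl)
  exact crossAbstract ℚ⟮ζ⟯ L (EH L ζ (r * r') (Theta L ζ (r * r') ψ hrm χ₁).ker)
    (MH L ζ (r * r') (Theta L ζ (r * r') ψ hrm χ₁).ker)
    (EH L ζ (r * r') (Theta L ζ (r * r') ψ hr'm χ₂).ker)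
    (MH L ζ (r * r') (Theta L ζ (r * r') ψ hr'm χ₂).ker)
    (EH L ζ (r * r') ((Theta L ζ (r * r') ψ hrm χ₁).ker ⊓ (Theta L ζ (r * r') ψ hr'm χ₂).ker))
    hNF hp hkp hu hKL χ₁ χ₂ ω₀ hω₀.pow_eq_one hχ₁ hχ₂ hE₁ hE₂ B₁ B₂ P₃ hP₃0 hB₁n hB₂n hℓr hℓr'
    (Nat.Coprime.coprime_dvd_right hrm hP₃m) (Nat.Coprime.coprime_dvd_right hr'm hP₃m)
    hχP₁ hχP₂ q q' (hq.trans hB₁r.symm) (hq'.trans hB₂r.symm)

end Fermat.Agent.S14.Cross
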