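import Fermat.Agent.S14.Crossing.CompareBasic

/-!
# S14, crossing: one auxiliary pair `(E, M)`, `E = Ω^(ker Θ)`, `M = L · E`
-/

set_option autoImplicit false

open NumberField Polynomial
open scoped nonZeroDivisors IntermediateField

noncomputable section

namespace Fermat.Agent.S14.Cross

variable {L : Type} [Field L] [NumberField L] [IsGalois ℚ L] {ζ : L} {m : ℕ} [NeZero m]

/-- Value of `Θ`. -/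
theorem theta_apply (ψ : (L ≃ₐ[ℚ⟮ζ⟯] L) →* ℂˣ) {d : ℕ} (hd : d ∣ m) (χ : DirichletCharacter ℂ d)
    (g : Gam L ζ m) :
    Theta L ζ m ψ hd χ g = ψ (resL L ζ m g) * (χ.toUnitHom (ZMod.unitsMap hd (cyc L ζ m g)))⁻¹ :=
  rfl

theorem mem_ker_theta_iff (ψ : (L ≃ₐ[ℚ⟮ζ⟯] L) →* ℂˣ) {d : ℕ} (hd : d ∣ m)
    (χ : DirichletCharacter ℂ d) (g : Gam L ζ m) :
    g ∈ (Theta L ζ m ψ hd χ).ker ↔
      χ ((ZMod.unitsMap hd (cyc L ζ m g) : (ZMod d)ˣ) : ZMod d) = ((ψ (resL L ζ m g) : ℂˣ) : ℂ) := by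
  rw [MonoidHom.mem_ker, theta_apply, mul_inv_eq_one, ← MulChar.coe_toUnitHom, eq_comm,
    Units.ext_iff]

/-- `resL` maps `ker Θ` onto `Gal(L/K)`. -/
theorem resL_ker_theta_surj (ψ : (L ≃ₐ[ℚ⟮ζ⟯] L) →* ℂˣ) {d : ℕ} (hd : d ∣ m)
    (χ : DirichletCharacter ℂ d)
    (hsurj : ∀ (σ : L ≃ₐ[ℚ⟮ζ⟯] L) (a : (ZMod m)ˣ),
      ∃ g : Gam L ζ m, resL L ζ m g = σ ∧ cyc L ζ m g = a)
    (him : ∀ σ : L ≃ₐ[ℚ⟮ζ⟯] L, ∃ a : (ZMod d)ˣ, χ (a : ZMod d) = ((ψ σ : ℂˣ) : ℂ))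
    (σ : L ≃ₐ[ℚ⟮ζ⟯] L) : ∃ g ∈ (Theta L ζ m ψ hd χ).ker, resL L ζ m g = σ := by
  obtain ⟨a, ha⟩ := him σ
  obtain ⟨b, hb⟩ := ZMod.unitsMap_surjective hd a
  obtain ⟨g, hg1, hg2⟩ := hsurj σ b
  refine ⟨g, ?_, hg1⟩
  rw [mem_ker_theta_iff, hg2, hb, ha, hg1]

/-- The primitive `p`-th root of unity `ζ`, as an element of `E_H`. -/
def zetaEH (L : Type) [Field L] [NumberField L] [IsGalois ℚ L] (ζ : L) (m : ℕ) [NeZero m]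
    (H : Subgroup (Gam L ζ m)) : EH L ζ m H :=
  algebraMap ℚ⟮ζ⟯ (EH L ζ m H) (IntermediateField.AdjoinSimple.gen ℚ ζ)

theorem zetaEH_spec {p : ℕ} (hζ : IsPrimitiveRoot ζ p) (H : Subgroup (Gam L ζ m)) :
    IsPrimitiveRoot (zetaEH L ζ m H) p := by
  have h1 : IsPrimitiveRoot (IntermediateField.AdjoinSimple.gen ℚ ζ) p := by
    have : algebraMap ℚ⟮ζ⟯ L (IntermediateField.AdjoinSimple.gen ℚ ζ) = ζ :=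
      IntermediateField.AdjoinSimple.algebraMap_gen ℚ ζ
    rw [← this] at hζ
    exact IsPrimitiveRoot.of_map_of_injective (f := algebraMap ℚ⟮ζ⟯ L) hζ (algebraMap ℚ⟮ζ⟯ L).injective
  exact h1.map_of_injective (algebraMap ℚ⟮ζ⟯ (EH L ζ m H)).injective

/-- One auxiliary pair: the reciprocity statement in `(E, M)` and the prime of degree one. -/
theorem cmp_half (hERec : ERec) (hU1a : FinrankEHMH) (hU1b : UnramEHMH) (hb : ChiNormMH)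
    (hc : SplitPrimeEH) (ha : NormResidue)
    (p : ℕ) (r : ℕ) (hrm : r ∣ m) (ψ : (L ≃ₐ[ℚ⟮ζ⟯] L) →* ℂˣ) (χ : DirichletCharacter ℂ r)
    (hp : p.Prime) (hp2 : p ≠ 2) (hζ : IsPrimitiveRoot ζ p)
    (hcard : Nat.card (L ≃ₐ[ℚ⟮ζ⟯] L) = p) (hunr : UnramifiedEverywhere ℚ⟮ζ⟯ L)
    (hr : r.Prime) (hrp : r % p = 1) (hmr : (m / r).Coprime r)
    (hsurj : ∀ (σ : L ≃ₐ[ℚ⟮ζ⟯] L) (a : (ZMod m)ˣ),
      ∃ g : Gam L ζ m, resL L ζ m g = σ ∧ cyc L ζ m g = a)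
    (hχpow : ∃ k : ℕ, χ ^ (p ^ k) = 1)
    (him : ∀ σ : L ≃ₐ[ℚ⟮ζ⟯] L, ∃ a : (ZMod r)ˣ, χ (a : ZMod r) = ((ψ σ : ℂˣ) : ℂ))
    (ℓ : ℕ) (Q : Ideal (𝓞 L)) (τ : L ≃ₐ[ℚ⟮ζ⟯] L) (hℓ : ℓ.Prime) (hℓp : ℓ % p = 1)
    (hℓm : ℓ.Coprime m) (hℓr : ℓ.Coprime r) (hQ : Q.IsPrime) (hℓQ : (ℓ : 𝓞 L) ∈ Q)
    (hF : ∀ x : 𝓞 L, ∃ y ∈ Q, τ (x : L) - (x : L) ^ ℓ = (y : L))
    (hχℓ : χ (ℓ : ZMod r) = ((ψ τ : ℂˣ) : ℂ)) (hχℓ1 : χ (ℓ : ZMod r) ≠ 1) :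
    (∀ I : (Ideal (𝓞 (EH L ζ m (Theta L ζ m ψ hrm χ).ker)))⁰,
      (Ideal.absNorm (I : Ideal (𝓞 (EH L ζ m (Theta L ζ m ψ hrm χ).ker)))).Coprime r →
      χ ((Ideal.absNorm (I : Ideal (𝓞 (EH L ζ m (Theta L ζ m ψ hrm χ).ker))) : ℕ) : ZMod r) = 1 →
      ClassGroup.mk0 I ∈ normClasses (EH L ζ m (Theta L ζ m ψ hrm χ).ker)
        (MH L ζ m (Theta L ζ m ψ hrm χ).ker)) ∧
    ∃ B : Ideal (𝓞 (EH L ζ m (Theta L ζ m ψ hrm χ).ker)), B.IsPrime ∧ Ideal.absNorm B = ℓ ∧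
      Ideal.relNorm (𝓞 ℚ⟮ζ⟯) B = Q.under (𝓞 ℚ⟮ζ⟯) := by
  have hsH := resL_ker_theta_surj ψ hrm χ hsurj him
  have hKL : Module.finrank ℚ⟮ζ⟯ L = p := by
    have : IsGalois ℚ⟮ζ⟯ L := IsGalois.tower_top_of_isGalois ℚ ℚ⟮ζ⟯ L
    rw [← IsGalois.card_aut_eq_finrank, hcard]
  -- the prime of degree one
  obtain ⟨B, hBp, hBn, hBr⟩ := hc p L ζ m (Theta L ζ m ψ hrm χ).ker ℓ Q τ hp hζ hunr hℓ hℓp hℓm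
    hQ hℓQ hF (by
      intro g hg1 hg2
      rw [mem_ker_theta_iff, hg1, ← hχℓ, ZMod.unitsMap_val, hg2, ZMod.cast_natCast hrm])
  refine ⟨?_, B, hBp, hBn, hBr⟩
  refine hERec p r (EH L ζ m (Theta L ζ m ψ hrm χ).ker) (MH L ζ m (Theta L ζ m ψ hrm χ).ker)
    (zetaEH L ζ m _) χ hp hp2 hr (zetaEH_spec hζ _) ?_ ?_ ?_ ?_ ?_
  · rw [hU1a L ζ m _ hsH, hKL]
  · exact hU1b L ζ m _ hunr
  · exact ha p L ζ m r hrm ψ χ hp hp2 hζ hcard hunr hr hrp hmr hsurj hχpow him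
  · exact hb L ζ m _ ψ r hrm χ le_rfl
  · exact ⟨B, by rw [hBn]; exact hℓr, by rw [hBn]; exact hχℓ1⟩

end Fermat.Agent.S14.Cross
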