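import Fermat.Agent.S14.Crossing.Statements

/-!
# S14 crossing core, C2: `Gal(Ω/K)` is commutative when `Gal(L/K)` has prime order  (helper12)
-/

set_option autoImplicit false

open NumberField Polynomial
open scoped nonZeroDivisors IntermediateField

namespace Fermat.Agent.S14.Cross

/-- **C2 (G1)**: `Gal(Ω/K)` is commutative when `Gal(L/K)` has prime order (from C1 `GamExt`). -/
theorem gamComm (hext : GamExt) : GamComm := by
  intro p L _ _ _ ζ m _ hp hcard g h
  have hp' : Fact p.Prime := ⟨hp⟩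
  have hcyc : IsCyclic (L ≃ₐ[ℚ⟮ζ⟯] L) := isCyclic_of_prime_card hcard
  have hcomm : ∀ a b : L ≃ₐ[ℚ⟮ζ⟯] L, a * b = b * a := by
    intro a b
    let _ := IsCyclic.commGroup (α := L ≃ₐ[ℚ⟮ζ⟯] L)
    exact mul_comm a b
  have key : (g * h) * (h * g)⁻¹ = 1 := by
    refine hext L ζ m _ ?_ ?_
    · rw [map_mul, map_mul, map_inv, map_mul, hcomm (resL L ζ m g) (resL L ζ m h)]
      exact mul_inv_cancel _
    · rw [map_mul, map_mul, map_inv, map_mul, mul_comm (cyc L ζ m g) (cyc L ζ m h)]
      exact mul_inv_cancel _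
  exact mul_inv_eq_one.mp key

end Fermat.Agent.S14.Cross
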