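import Fermat.Agent.S14.Crossing.Statements

set_option autoImplicit false

open NumberField Polynomial
open scoped nonZeroDivisors IntermediateField

noncomputable section

namespace Fermat.Agent.S14.Cross

/-- an element of `Gal(Ω/K)` fixing `L` pointwise and `ζ_m` is trivial. -/
theorem c1_eq_one_of_fix {L : Type} [Field L] [NumberField L] [IsGalois ℚ L] {ζ : L} {m : ℕ}
    [NeZero m] (g : Gam L ζ m) (hL : ∀ x : L, g (algebraMap L (Om L m) x) = algebraMap L (Om L m) x)
    (hz : g (zetaOm L m) = zetaOm L m) : g = 1 := by
  -- the `L`-algebra endomorphism induced by `g`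
  let g' : Om L m →ₐ[L] Om L m :=
    { (g : Om L m →+* Om L m) with
      commutes' := hL }
  have hadj : Algebra.adjoin L {zetaOm L m} = ⊤ :=
    IsCyclotomicExtension.adjoin_primitive_root_eq_top (zetaOm_spec L m)
  have h1 : g' = AlgHom.id L (Om L m) := by
    apply AlgHom.ext_of_adjoin_eq_top hadj
    intro x hx
    rw [Set.mem_singleton_iff] at hx
    subst hx
    exact hz
  ext x
  have := DFunLike.congr_fun h1 x
  exact this

theorem gamExt : GamExt := by
  intro L _ _ _ ζ m _ g hres hcyc
  apply c1_eq_one_of_fix g
  · intro x
    have := resL_commutes L ζ m g x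
    rw [hres] at this
    exact this.symm
  · have := cyc_spec L ζ m g
    rw [hcyc] at this
    rw [this]
    have h1 : ((1 : (ZMod m)ˣ) : ZMod m).val = 1 % m := by
      rw [Units.val_one]
      exact ZMod.val_one_eq_one_mod m
    rw [h1]
    rcases Nat.lt_or_ge 1 m with h | h
    · rw [Nat.mod_eq_of_lt h, pow_one]
    · have hm : m = 1 := by
        have := NeZero.pos m
        omega
      have hz : zetaOm L m = 1 := by
        have h2 := (zetaOm_spec L m).pow_eq_one
        have h3 : zetaOm L m ^ m = zetaOm L m ^ 1 := by
          congr 1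
        rw [h3, pow_one] at h2
        exact h2
      rw [hz, one_pow]

end Fermat.Agent.S14.Cross
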