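import Fermat.Agent.S14.Crossing.Statements
import Fermat.Agent.S14.FinalA

/-!
# S14 crossing, piece C12 (iv): the inertia group at a prime above `r` has at least `r - 1`
elements (helper13)
-/

set_option autoImplicit false
set_option linter.unusedSectionVars false

open NumberField Polynomial
open scoped nonZeroDivisors IntermediateField

namespace Fermat.Agent.S14.Cross

section c12b

variable {L : Type} [Field L] [NumberField L] [IsGalois ℚ L] {ζ : L} {m : ℕ} [NeZero m]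

/-- The ramification index over `ℤ` of a prime of `Ω` above `r ∣ m` is at least `r - 1`. -/
theorem c12b_le_ramificationIdx_int {r : ℕ} (hr : r.Prime) (hrm : r ∣ m)
    (ℜ : Ideal (𝓞 (Om L m))) (hℜ : ℜ.IsPrime) (hrℜ : (r : 𝓞 (Om L m)) ∈ ℜ) :
    r - 1 ≤ ℜ.ramificationIdx ℤ := by
  have : Fact r.Prime := ⟨hr⟩
  have : NeZero r := ⟨hr.ne_zero⟩
  have hm0 : m ≠ 0 := NeZero.ne m
  -- the primitive `r`-th root of unity `ζ_m ^ (m / r)`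
  have hη : IsPrimitiveRoot (zetaOm L m ^ (m / r)) r :=
    (zetaOm_spec L m).pow (Nat.pos_of_ne_zero hm0) (Nat.div_mul_cancel hrm).symm
  set F : IntermediateField ℚ (Om L m) := ℚ⟮zetaOm L m ^ (m / r)⟯ with hF
  have hcyc : IsCyclotomicExtension {r} ℚ F :=
    hη.intermediateField_adjoin_isCyclotomicExtension ℚ
  have hover : (ℜ.under (𝓞 F)).LiesOver (Ideal.span {(r : ℤ)}) := by
    refine ⟨?_⟩
    rw [Ideal.under_under]
    exact (x9a_under_int hr hℜ hrℜ).symm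
  have h1 : (ℜ.under (𝓞 F)).ramificationIdx ℤ = r - 1 :=
    IsCyclotomicExtension.Rat.ramificationIdx_eq_of_prime r F (ℜ.under (𝓞 F))
  rw [← h1]
  exact Ideal.ramificationIdx_below_le (R := ℤ) (ℜ.under (𝓞 F)) ℜ

/-- The ramification index over `K = ℚ(ζ)` of a prime of `Ω` above `r ∣ m`, `r ≠ p`, is at
least `r - 1`. -/
theorem c12b_le_ramificationIdx {p r : ℕ} (hp : p.Prime) (hζ : IsPrimitiveRoot ζ p)
    (hr : r.Prime) (hrp : r ≠ p) (hrm : r ∣ m)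
    (ℜ : Ideal (𝓞 (Om L m))) (hℜ : ℜ.IsPrime) (hrℜ : (r : 𝓞 (Om L m)) ∈ ℜ) :
    r - 1 ≤ ℜ.ramificationIdx (𝓞 ℚ⟮ζ⟯) := by
  have : Fact r.Prime := ⟨hr⟩
  have : NeZero p := ⟨hp.ne_zero⟩
  have hcyc : IsCyclotomicExtension {p} ℚ ℚ⟮ζ⟯ :=
    hζ.intermediateField_adjoin_isCyclotomicExtension ℚ
  have hover : (ℜ.under (𝓞 ℚ⟮ζ⟯)).LiesOver (Ideal.span {(r : ℤ)}) := by
    refine ⟨?_⟩
    rw [Ideal.under_under]
    exact (x9a_under_int hr hℜ hrℜ).symm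
  have hrp' : ¬ r ∣ p := fun h => hrp ((Nat.prime_dvd_prime_iff_eq hr hp).mp h)
  have h1 : (ℜ.under (𝓞 ℚ⟮ζ⟯)).ramificationIdx ℤ = 1 :=
    IsCyclotomicExtension.Rat.ramificationIdx_eq_of_not_dvd r ℚ⟮ζ⟯ (ℜ.under (𝓞 ℚ⟮ζ⟯)) hrp'
  have h2 := Ideal.ramificationIdx_tower (R := ℤ) (ℜ.under (𝓞 ℚ⟮ζ⟯)) ℜ
  rw [h1, one_mul] at h2
  rw [← h2]
  exact c12b_le_ramificationIdx_int hr hrm ℜ hℜ hrℜ

/-- **C12 (iv)**: the inertia group in `Gal(Ω/K)` of a prime of `Ω` above `r ∣ m`, `r ≠ p`, has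
at least `r - 1` elements. -/
theorem c12b_le_card_inertia {p r : ℕ} (hp : p.Prime) (hζ : IsPrimitiveRoot ζ p)
    (hr : r.Prime) (hrp : r ≠ p) (hrm : r ∣ m)
    (ℜ : Ideal (𝓞 (Om L m))) (hℜ : ℜ.IsPrime) (hrℜ : (r : 𝓞 (Om L m)) ∈ ℜ) :
    r - 1 ≤ Nat.card (Ideal.inertia (Gam L ζ m) ℜ) := by
  have h1 := Ideal.card_inertia_eq_ramificationIdxIn (G := Gam L ζ m) (ℜ.under (𝓞 ℚ⟮ζ⟯)) ℜ
  have h2 := Ideal.ramificationIdxIn_eq_ramificationIdx (ℜ.under (𝓞 ℚ⟮ζ⟯)) ℜ (Gam L ζ m)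
  rw [h1, h2]
  exact c12b_le_ramificationIdx hp hζ hr hrp hrm ℜ hℜ hrℜ

end c12b

end Fermat.Agent.S14.Cross
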