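import Fermat.Agent.S14.CrossingInterface

/-!
# S14, crossing with cyclotomic fields: the common set-up

`L/ℚ` Galois number field, `ζ ∈ L`, `K = ℚ⟮ζ⟯`, `m ≠ 0`.

* `Om L m = L(ζ_m)` (`CyclotomicField m L`), Galois over `ℚ` and over `K`;
* `Gam L ζ m = Gal(Ω/K)`, `resL : Gam → Gal(L/K)`, `cyc : Gam → (ℤ/m)ˣ`;
* for a subgroup `H ≤ Gam`: `EH = Ω^H` (an intermediate field of `Ω/K`) and
  `MH = Ω^(H ∩ ker resL) = L · EH` (an intermediate field of `Ω/EH`), with its `L`-algebra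
  structure;
* for a character `ψ` of `Gal(L/K)` and a Dirichlet character `χ` mod `d ∣ m`:
  `Theta = (ψ ∘ resL) * (χ ∘ cyc)⁻¹ : Gam → ℂˣ`.
-/

set_option autoImplicit false
set_option linter.unusedSectionVars false

open NumberField Polynomial
open scoped nonZeroDivisors IntermediateField

noncomputable section

namespace Fermat.Agent.S14.Cross

variable (L : Type) [Field L] [NumberField L] [IsGalois ℚ L] (ζ : L)
variable (m : ℕ) [NeZero m]

/-- The big field `Ω = L(ζ_m)`. -/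
abbrev Om : Type := CyclotomicField m L

instance isGalois_L_Om : IsGalois L (Om L m) := IsCyclotomicExtension.isGalois {m} L (Om L m)

theorem isGalois_rat_Om : IsGalois ℚ (Om L m) := by
  obtain ⟨f, hfsep, hf⟩ := IsGalois.is_separable_splitting_field ℚ L
  have hf0 : f ≠ 0 := hfsep.ne_zero
  have hg0 : (X ^ m - 1 : ℚ[X]) ≠ 0 := by
    have := X_pow_sub_C_ne_zero (NeZero.pos m) (1 : ℚ)
    simpa using this
  have h1 : IsSplittingField L (Om L m) ((X ^ m - 1 : ℚ[X]).map (algebraMap ℚ L)) := by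
    have := IsCyclotomicExtension.isSplittingField_X_pow_sub_one m L (Om L m)
    simpa using this
  have h2 := IsSplittingField.mul (F := ℚ) (K := L) (L := Om L m) f (X ^ m - 1) hf0 hg0
  have : Normal ℚ (Om L m) := Normal.of_isSplittingField (f * (X ^ m - 1))
  exact ⟨⟩

instance isGalois_rat_Om' : IsGalois ℚ (Om L m) := isGalois_rat_Om L m

instance isGalois_K_Om : IsGalois ℚ⟮ζ⟯ (Om L m) :=
  IsGalois.tower_top_of_isGalois ℚ ℚ⟮ζ⟯ (Om L m)

/-- `Γ = Gal(Ω/K)`. -/
abbrev Gam : Type := Om L m ≃ₐ[ℚ⟮ζ⟯] Om L m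

/-- Restriction `Gal(Ω/K) → Gal(L/K)`. -/
def resL : Gam L ζ m →* (L ≃ₐ[ℚ⟮ζ⟯] L) := AlgEquiv.restrictNormalHom L

theorem resL_commutes (g : Gam L ζ m) (x : L) :
    algebraMap L (Om L m) (resL L ζ m g x) = g (algebraMap L (Om L m) x) :=
  AlgEquiv.restrictNormal_commutes g L x

/-- The distinguished primitive `m`-th root of unity of `Ω`. -/
def zetaOm : Om L m := IsCyclotomicExtension.zeta m L (Om L m)

theorem zetaOm_spec : IsPrimitiveRoot (zetaOm L m) m :=
  IsCyclotomicExtension.zeta_spec m L (Om L m)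

/-- The cyclotomic character `Gal(Ω/K) → (ℤ/m)ˣ`: `g ζ_m = ζ_m ^ (cyc g)`. -/
def cyc : Gam L ζ m →* (ZMod m)ˣ := IsPrimitiveRoot.autToPow ℚ⟮ζ⟯ (zetaOm_spec L m)

theorem cyc_spec (g : Gam L ζ m) :
    g (zetaOm L m) = zetaOm L m ^ ((cyc L ζ m g : ZMod m).val) := by
  have := IsPrimitiveRoot.autToPow_spec ℚ⟮ζ⟯ (zetaOm_spec L m) g
  exact this.symm

/-- The twisting character `Θ = (ψ ∘ resL) * (χ ∘ cyc)⁻¹` attached to a character `ψ` of
`Gal(L/K)` and a Dirichlet character `χ` modulo a divisor `d` of `m`. -/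
def Theta (ψ : (L ≃ₐ[ℚ⟮ζ⟯] L) →* ℂˣ) {d : ℕ} (hd : d ∣ m) (χ : DirichletCharacter ℂ d) :
    Gam L ζ m →* ℂˣ :=
  (ψ.comp (resL L ζ m)) * ((χ.toUnitHom.comp ((ZMod.unitsMap hd).comp (cyc L ζ m))))⁻¹

section fields

variable (H : Subgroup (Gam L ζ m))

/-- `E_H = Ω^H`. -/
abbrev EH : IntermediateField ℚ⟮ζ⟯ (Om L m) := IntermediateField.fixedField H

/-- The elements of `Gal(Ω/E_H)` acting trivially on `L`. -/
def HL : Subgroup (Om L m ≃ₐ[EH L ζ m H] Om L m) :=
  ((resL L ζ m).comp (AlgEquiv.restrictScalarsHom ℚ⟮ζ⟯)).ker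

instance : (HL L ζ m H).Normal := by
  unfold HL
  infer_instance

/-- `M_H = Ω^(H ∩ ker resL) = L · E_H`, as an intermediate field of `Ω/E_H`. -/
abbrev MH : IntermediateField (EH L ζ m H) (Om L m) := IntermediateField.fixedField (HL L ζ m H)

instance isGalois_EH_MH : IsGalois (EH L ζ m H) (MH L ζ m H) :=
  IsGalois.of_fixedField_normal_subgroup (HL L ζ m H)

theorem algebraMap_mem_MH (x : L) : algebraMap L (Om L m) x ∈ MH L ζ m H := by
  rw [IntermediateField.mem_fixedField_iff]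
  intro g hg
  have hg' : resL L ζ m (AlgEquiv.restrictScalarsHom ℚ⟮ζ⟯ g) = 1 := hg
  have := resL_commutes L ζ m (AlgEquiv.restrictScalarsHom ℚ⟮ζ⟯ g) x
  rw [hg'] at this
  exact this.symm

/-- The embedding `L → M_H`. -/
def algLM : L →+* MH L ζ m H :=
  (algebraMap L (Om L m)).codRestrict (MH L ζ m H).toSubfield.toSubring
    (fun x => algebraMap_mem_MH L ζ m H x)

instance algebra_L_MH : Algebra L (MH L ζ m H) := (algLM L ζ m H).toAlgebra

theorem algebraMap_L_MH_coe (x : L) :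
    ((algebraMap L (MH L ζ m H) x : MH L ζ m H) : Om L m) = algebraMap L (Om L m) x := rfl

instance isScalarTower_K_L_MH : IsScalarTower ℚ⟮ζ⟯ L (MH L ζ m H) := by
  refine IsScalarTower.of_algebraMap_eq (fun x => ?_)
  apply Subtype.ext
  rw [algebraMap_L_MH_coe]
  rfl

instance isScalarTower_L_MH_Om : IsScalarTower L (MH L ζ m H) (Om L m) :=
  IsScalarTower.of_algebraMap_eq (fun _ => rfl)

end fields

end Fermat.Agent.S14.Cross
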